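import Fermat.Agent.PrimeLinearEquation.Grid

/-!
# One sum on the arcs

`∑_{i ≤ X / a} Λ i e (a i x)` is `O (X (log X) ^ (4 - m))` away from the arcs of level
`(log X) ^ (2 (m + 1))` and is `μ / φ (q / (q, a))` times the geometric sum, up to
`O (X / (log X) ^ D)`, on the arc at `r / q`.
-/

set_option autoImplicit false

noncomputable section

namespace FA.PrimeLinearEquation

open Finset Complex ArithmeticFunction
open FA.ThreePrimes (eAdd nearDist trigSum geomSum twist arc arcCentres centre)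

/-- The number of grid points. -/
def gridSize (a b X : ℕ) : ℕ := a * (b * (3 * X))

/-- The level of the arcs. -/
def level (m X : ℕ) : ℝ := Real.log X ^ (2 * (m + 1))

/-- The largest denominator. -/
def denBound (m X : ℕ) : ℕ := ⌊level m X⌋₊

/-- The sum of the coefficient `a`. -/
def twistMul (a X : ℕ) (x : ℝ) : ℂ := twist (a * x) Λ (X / a)

/-- Its model. -/
def geomMul (a X : ℕ) (x : ℝ) : ℂ := geomSum (X / a) (a * x)

/-- The points off the arcs. -/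
def minorPoints (a b m X : ℕ) : Finset ℕ :=
  range (gridSize a b X) \
    (arcCentres (denBound m X)).biUnion (arc (gridSize a b X) (level m X / X))

theorem geomMul_sub_intCast (a X : ℕ) (x : ℝ) (k : ℤ) :
    geomMul a X (x - k) = geomMul a X x := by
  rw [geomMul, geomMul, show (a : ℝ) * (x - k) = a * x - ((a * k : ℤ) : ℝ) by push_cast; ring,
    ThreePrimes.geomSum_sub_intCast]

/-- The logarithm of a large `X` exceeds any bound. -/
theorem exists_le_log (L : ℝ) : ∃ X₀ : ℕ, ∀ X : ℕ, X₀ ≤ X → L ≤ Real.log X :=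
  Filter.eventually_atTop.1
    ((Real.tendsto_log_atTop.comp tendsto_natCast_atTop_atTop).eventually_ge_atTop L)

/-- The size of `X / c`. -/
theorem div_facts {c X : ℕ} (hc : 0 < c) (hX : (2 * c) ^ 2 ≤ X) :
    2 ≤ X / c ∧ ((X / c : ℕ) : ℝ) * c ≤ X ∧ (X : ℝ) ≤ 2 * c * (X / c : ℕ) ∧
      √(X : ℝ) ≤ (X / c : ℕ) ∧ Real.log X / 2 ≤ Real.log (X / c : ℕ) ∧
      Real.log (X / c : ℕ) ≤ Real.log X := by
  have h2 : 2 ≤ X / c := by
    rw [Nat.le_div_iff_mul_le hc]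
    nlinarith
  have hX0 : 0 < X := by nlinarith
  have h3 : X ≤ 2 * c * (X / c) := by
    have h4 := Nat.div_add_mod X c
    have h5 := Nat.mod_lt X hc
    have h6 : c * 1 ≤ c * (X / c) := Nat.mul_le_mul_left c (by omega)
    nlinarith
  have h3' : (X : ℝ) ≤ 2 * c * (X / c : ℕ) := by exact_mod_cast h3
  have hsq : √(X : ℝ) ≤ (X / c : ℕ) := by
    have h4 : (2 * c : ℝ) ≤ √(X : ℝ) := by
      rw [Real.le_sqrt (by positivity) (Nat.cast_nonneg X)]
      exact_mod_cast hX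
    have hc' : (0 : ℝ) < 2 * c := by
      have : (0 : ℝ) < c := Nat.cast_pos.2 hc
      linarith
    refine le_of_mul_le_mul_left ?_ hc'
    calc (2 * c : ℝ) * √(X : ℝ) ≤ √(X : ℝ) * √(X : ℝ) :=
          mul_le_mul_of_nonneg_right h4 (Real.sqrt_nonneg _)
      _ = X := Real.mul_self_sqrt (Nat.cast_nonneg X)
      _ ≤ _ := h3'
  refine ⟨h2, by exact_mod_cast Nat.div_mul_le_self X c, h3', hsq, ?_, ?_⟩
  · rw [← Real.log_sqrt (Nat.cast_nonneg X)]
    exact Real.log_le_log (Real.sqrt_pos.2 (Nat.cast_pos.2 hX0)) hsq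
  · exact Real.log_le_log (Nat.cast_pos.2 (by omega)) (Nat.cast_le.2 (Nat.div_le_self X c))

/-- Every fraction of small denominator is a centre. -/
theorem exists_centre {P t : ℕ} (s : ℤ) (ht : 0 < t) (htP : t ≤ P) :
    ∃ z ∈ arcCentres P, ∀ x : ℝ, nearDist (x - centre z) ≤ |x - (s : ℝ) / t| := by
  obtain ⟨ρ, hρ⟩ : ∃ ρ : ℚ, ρ = (s : ℚ) / t := ⟨_, rfl⟩
  obtain ⟨q, hq⟩ : ∃ q, q = ρ.den := ⟨_, rfl⟩
  have : NeZero q := ⟨hq ▸ ρ.den_ne_zero⟩
  have hunit : IsUnit (ρ.num : ZMod q) := by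
    rw [ZMod.coe_int_isUnit_iff_isCoprime, isCoprime_comm, Int.isCoprime_iff_nat_coprime, hq]
    simpa using ρ.reduced
  have hqt : q ≤ t := by
    have : ρ = Rat.divInt s t := by rw [hρ, Rat.divInt_eq_div]; norm_num
    have h := Rat.den_dvd s t
    rw [← this, ← hq] at h
    exact Nat.le_of_dvd ht (Int.natCast_dvd_natCast.1 h)
  obtain ⟨r, hr⟩ : ∃ r, r = (ρ.num : ZMod q).val := ⟨_, rfl⟩
  refine ⟨⟨q, r⟩, ThreePrimes.mem_arcCentres.2
    ⟨⟨NeZero.pos q, hqt.trans htP⟩, hr ▸ ZMod.val_lt _, ?_⟩, fun x => ?_⟩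
  · have h1 : IsUnit ((r : ℕ) : ZMod q) := by rwa [hr, ZMod.natCast_zmod_val]
    exact ((ZMod.isUnit_iff_coprime r q).1 h1).symm
  obtain ⟨j, hj⟩ : (q : ℤ) ∣ ρ.num - r := by
    rw [← ZMod.intCast_zmod_eq_zero_iff_dvd, hr]
    push_cast
    rw [ZMod.natCast_zmod_val, sub_self]
  refine (ThreePrimes.nearDist_le_abs_sub _ j).trans (le_of_eq ?_)
  have hv : (s : ℝ) / t = (ρ.num : ℝ) / q := by
    have h1 : ((ρ : ℚ) : ℝ) = (s : ℝ) / t := by rw [hρ]; push_cast; rfl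
    rw [← h1, Rat.cast_def, hq]
  have h3 : (ρ.num : ℝ) - r = q * j := by exact_mod_cast hj
  have hq0 : (q : ℝ) ≠ 0 := Nat.cast_ne_zero.2 (NeZero.ne q)
  rw [hv]
  congr 1
  simp only [centre]
  field_simp
  linarith

/-- **Off the arcs.** -/
theorem exists_minor_mul_le (a b m : ℕ) (ha : 0 < a) : ∃ (C : ℝ) (X₀ : ℕ), 0 < C ∧
    ∀ X : ℕ, X₀ ≤ X → level m X ≤ √(X : ℝ) → ∀ h ∈ minorPoints a b m X,
      ‖twistMul a X ((h : ℝ) / gridSize a b X)‖ ≤ C * (X * Real.log X ^ 4 / Real.log X ^ m) := by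
  obtain ⟨C, hC, hmin⟩ := ThreePrimes.exists_minor_le m
  obtain ⟨X₁, hX₁⟩ := exists_le_log (2 * (a : ℝ) + 2)
  refine ⟨C * 2 ^ m, max ((2 * a) ^ 2) X₁, by positivity, fun X hX hRX h hh => ?_⟩
  obtain ⟨hN2, hNX, hXN, hsq, hLl, hlL⟩ := div_facts ha (le_trans (le_max_left _ _) hX)
  obtain ⟨l, hl⟩ : ∃ l, l = Real.log X := ⟨_, rfl⟩
  have hla : 2 * (a : ℝ) + 2 ≤ l := hl ▸ hX₁ X (le_trans (le_max_right _ _) hX)
  obtain ⟨N, hN⟩ : ∃ N, N = X / a := ⟨_, rfl⟩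
  obtain ⟨L, hL⟩ : ∃ L, L = Real.log N := ⟨_, rfl⟩
  rw [← hN] at hN2 hNX hXN hsq hLl hlL
  rw [← hl, ← hL] at hLl hlL
  have ha1 : (1 : ℝ) ≤ a := by exact_mod_cast ha
  have hl2 : 2 ≤ l := by linarith
  have hL1 : 1 ≤ L := by linarith
  have hL0 : 0 ≤ L ^ (2 * m) := by positivity
  have hRL : 2 * (a : ℝ) * L ^ (2 * m) ≤ level m X := by
    rw [level, ← hl, show 2 * (m + 1) = 2 + 2 * m by ring, pow_add]
    refine mul_le_mul ?_ (pow_le_pow_left₀ (by linarith) hlL _) hL0 (sq_nonneg l)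
    nlinarith
  have hR0 : 0 ≤ level m X := le_trans (by positivity) hRL
  have hN0 : (0 : ℝ) < N := Nat.cast_pos.2 (by omega)
  have hout : ∀ z ∈ arcCentres ⌊L ^ (2 * m)⌋₊,
      L ^ (2 * m) / N < nearDist ((a : ℝ) * ((h : ℝ) / gridSize a b X) - centre z) := by
    rintro ⟨q, r⟩ hz
    by_contra hle
    rw [not_lt] at hle
    rw [ThreePrimes.mem_arcCentres] at hz
    obtain ⟨⟨hq1, hqP⟩, -, -⟩ := hz
    simp only at hq1 hqP
    obtain ⟨x, hx⟩ : ∃ x : ℝ, x = (h : ℝ) / gridSize a b X := ⟨_, rfl⟩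
    rw [← hx, nearDist] at hle
    obtain ⟨k, hk⟩ : ∃ k, k = round ((a : ℝ) * x - centre ⟨q, r⟩) := ⟨_, rfl⟩
    rw [← hk] at hle
    have haq : a * q ≤ denBound m X := by
      refine Nat.le_floor ?_
      have : (q : ℝ) ≤ L ^ (2 * m) := (Nat.cast_le.2 hqP).trans (Nat.floor_le hL0)
      push_cast
      nlinarith
    obtain ⟨z, hz, hzx⟩ := exists_centre (t := a * q) ((r : ℤ) + k * q)
      (Nat.mul_pos ha hq1) haq
    have hq0 : (q : ℝ) ≠ 0 := Nat.cast_ne_zero.2 (by omega)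
    have hnear : nearDist (x - centre z) ≤ level m X / X := by
      refine (hzx x).trans ?_
      have e : x - (((r : ℤ) + k * q : ℤ) : ℝ) / ((a * q : ℕ) : ℝ) =
          ((a : ℝ) * x - centre ⟨q, r⟩ - k) / a := by
        simp only [centre]
        push_cast
        field_simp
        ring
      have hX0 : (0 : ℝ) < X :=
        lt_of_lt_of_le hN0 (le_trans (le_mul_of_one_le_right hN0.le ha1) hNX)
      rw [e, abs_div, Nat.abs_cast, div_le_div_iff₀ (by linarith) hX0]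
      calc |(a : ℝ) * x - centre ⟨q, r⟩ - k| * X ≤ L ^ (2 * m) / N * (2 * a * N) :=
            mul_le_mul hle hXN hX0.le (by positivity)
        _ = 2 * a * L ^ (2 * m) := by field_simp
        _ ≤ level m X := hRL
        _ ≤ level m X * a := le_mul_of_one_le_right hR0 ha1
    rw [minorPoints, mem_sdiff, mem_biUnion] at hh
    refine hh.2 ⟨z, hz, mem_filter.2 ⟨hh.1, ?_⟩⟩
    rwa [← hx]
  have hLN : L ^ (2 * m) ≤ N := by
    refine le_trans ?_ (hRX.trans hsq)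
    exact le_trans (le_mul_of_one_le_left hL0 (by linarith)) hRL
  have := hmin N ⌊L ^ (2 * m)⌋₊ ((a : ℝ) * ((h : ℝ) / gridSize a b X)) (hL ▸ hL1) (hL ▸ hLN)
    (by rw [hL]) (by rw [← hL]; exact hout)
  rw [twistMul, ← hN, ← hl]
  refine this.trans ?_
  rw [← hL, mul_assoc]
  refine mul_le_mul_of_nonneg_left ?_ hC.le
  have hNleX : (N : ℝ) ≤ X := by rw [hN]; exact_mod_cast Nat.div_le_self X a
  have hm : l ^ m ≤ 2 ^ m * L ^ m := by
    rw [← mul_pow]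
    exact pow_le_pow_left₀ (by linarith) (by linarith) m
  calc (N : ℝ) * L ^ 4 / L ^ m ≤ X * l ^ 4 / L ^ m := by gcongr
    _ ≤ 2 ^ m * (X * l ^ 4 / l ^ m) := by
        rw [mul_div_assoc', div_le_div_iff₀ (by positivity) (by positivity)]
        calc (X : ℝ) * l ^ 4 * l ^ m ≤ (X : ℝ) * l ^ 4 * (2 ^ m * L ^ m) :=
              mul_le_mul_of_nonneg_left hm (by positivity)
          _ = _ := by ring

/-- **On an arc.** -/
theorem exists_major_mul_le (a b m D : ℕ) (ha : 0 < a) : ∃ (C : ℝ) (X₀ : ℕ), 0 < C ∧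
    ∀ X : ℕ, X₀ ≤ X → ∀ z ∈ arcCentres (denBound m X),
      ∀ h ∈ arc (gridSize a b X) (level m X / X) z,
        ‖twistMul a X ((h : ℝ) / gridSize a b X) -
          (arcCoeff a z.1 : ℂ) * geomMul a X ((h : ℝ) / gridSize a b X - centre z)‖ ≤
            C * (X / Real.log X ^ D) := by
  obtain ⟨C, hC, hmaj⟩ := ThreePrimes.exists_major_approx (2 * m + 3) D
  obtain ⟨X₁, hX₁⟩ := exists_le_log (2 * 2 ^ (2 * (m + 1)) : ℝ)
  refine ⟨C * 2 ^ D, max ((2 * a) ^ 2) X₁, by positivity, fun X hX z hz h hh => ?_⟩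
  obtain ⟨hN2, hNX, -, -, hLl, hlL⟩ := div_facts ha (le_trans (le_max_left _ _) hX)
  obtain ⟨l, hl⟩ : ∃ l, l = Real.log X := ⟨_, rfl⟩
  have hlbig : 2 * (2 : ℝ) ^ (2 * (m + 1)) ≤ l := hl ▸ hX₁ X (le_trans (le_max_right _ _) hX)
  obtain ⟨N, hN⟩ : ∃ N, N = X / a := ⟨_, rfl⟩
  obtain ⟨L, hL⟩ : ∃ L, L = Real.log N := ⟨_, rfl⟩
  rw [← hN] at hN2 hNX hLl hlL
  rw [← hl, ← hL] at hLl hlL
  have h2p : (1 : ℝ) ≤ 2 ^ (2 * (m + 1)) := one_le_pow₀ one_le_two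
  have hLbig : (2 : ℝ) ^ (2 * (m + 1)) ≤ L := by linarith
  have hl0 : 0 < l := by linarith
  have hRL : level m X ≤ L ^ (2 * m + 3) := by
    rw [level, ← hl, show 2 * m + 3 = 1 + 2 * (m + 1) by ring, pow_add _ 1, pow_one]
    calc l ^ (2 * (m + 1)) ≤ (2 * L) ^ (2 * (m + 1)) :=
          pow_le_pow_left₀ hl0.le (by linarith) _
      _ = 2 ^ (2 * (m + 1)) * L ^ (2 * (m + 1)) := mul_pow _ _ _
      _ ≤ _ := mul_le_mul_of_nonneg_right hLbig (pow_nonneg (by linarith) _)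
  have hR0 : 0 ≤ level m X := by rw [level, ← hl]; positivity
  obtain ⟨q, r⟩ := z
  rw [ThreePrimes.mem_arcCentres] at hz
  obtain ⟨⟨hq1, hqP⟩, -, hcop⟩ := hz
  simp only at hq1 hqP hcop
  rw [arc, mem_filter, nearDist] at hh
  obtain ⟨x, hx⟩ : ∃ x : ℝ, x = (h : ℝ) / gridSize a b X := ⟨_, rfl⟩
  rw [← hx] at hh ⊢
  obtain ⟨k, hk⟩ : ∃ k, k = round (x - centre ⟨q, r⟩) := ⟨_, rfl⟩
  obtain ⟨β, hβ⟩ : ∃ β, β = x - centre ⟨q, r⟩ - k := ⟨_, rfl⟩
  rw [← hk, ← hβ] at hh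
  obtain ⟨g, hg⟩ : ∃ g, g = q.gcd a := ⟨_, rfl⟩
  have hg0 : 0 < g := hg ▸ Nat.gcd_pos_of_pos_left a hq1
  obtain ⟨q', hq'⟩ : g ∣ q := hg ▸ Nat.gcd_dvd_left q a
  obtain ⟨a', ha'⟩ : g ∣ a := hg ▸ Nat.gcd_dvd_right q a
  have hq'0 : 0 < q' := Nat.pos_of_mul_pos_left (hq' ▸ hq1 : 0 < g * q')
  have : NeZero q' := ⟨hq'0.ne'⟩
  have hcop' : a'.Coprime q' := by
    have := Nat.coprime_div_gcd_div_gcd (m := q) (n := a) (hg ▸ hg0)
    rw [← hg, hq', ha', Nat.mul_div_cancel_left _ hg0, Nat.mul_div_cancel_left _ hg0] at this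
    exact this.symm
  have hr : r.Coprime q' := hcop.symm.coprime_dvd_right (hq' ▸ dvd_mul_left q' g)
  obtain ⟨A, hA⟩ : ∃ A : ℤ, A = (a' : ℤ) * ((r : ℤ) + k * q) := ⟨_, rfl⟩
  have hunit : IsUnit (A : ZMod q') := by
    rw [hA, hq']
    push_cast
    rw [ZMod.natCast_self, mul_zero, mul_zero, add_zero]
    exact ((ZMod.isUnit_iff_coprime a' q').2 hcop').mul ((ZMod.isUnit_iff_coprime r q').2 hr)
  have hq'R : (q' : ℝ) ≤ L ^ (2 * m + 3) := by
    refine le_trans ?_ ((Nat.cast_le.2 hqP).trans ((Nat.floor_le hR0).trans hRL))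
    exact Nat.cast_le.2 (hq' ▸ Nat.le_mul_of_pos_left q' hg0)
  have hX0 : (0 : ℝ) < X := by
    have : 0 < X := lt_of_lt_of_le (pow_pos (by omega : 0 < 2 * a) 2)
      (le_trans (le_max_left _ _) hX)
    exact_mod_cast this
  have hβ' : |(a : ℝ) * β| * N ≤ L ^ (2 * m + 3) := by
    refine le_trans ?_ hRL
    rw [abs_mul, Nat.abs_cast]
    calc (a : ℝ) * |β| * N = |β| * ((N : ℝ) * a) := by ring
      _ ≤ level m X / X * X := mul_le_mul hh.2 hNX (by positivity) (by positivity)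
      _ = level m X := div_mul_cancel₀ _ hX0.ne'
  have hα : (a : ℝ) * x = (A : ℝ) / q' + a * β := by
    have hq0 : (q : ℝ) ≠ 0 := Nat.cast_ne_zero.2 (by omega)
    have hq'r : (q' : ℝ) ≠ 0 := Nat.cast_ne_zero.2 hq'0.ne'
    have hqr : (q : ℝ) = g * q' := by exact_mod_cast hq'
    have har : (a : ℝ) = g * a' := by exact_mod_cast ha'
    rw [hβ, hA, centre]
    push_cast
    rw [har, hqr]
    have : (g : ℝ) ≠ 0 := Nat.cast_ne_zero.2 hg0.ne'
    field_simp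
    ring
  have happ := hmaj N q' A ((a : ℝ) * β) hN2 hunit (hL ▸ hq'R) (hL ▸ hβ')
  rw [← hα] at happ
  have hcoef : arcCoeff a q = ThreePrimes.moebiusR q' / (q'.totient : ℝ) := by
    rw [arcCoeff, ← hg, hq', Nat.mul_div_cancel_left q' hg0]
  rw [← geomMul_sub_intCast a X _ k, ← hβ, twistMul, geomMul, ← hN, hcoef]
  refine happ.trans ?_
  rw [← hL, ← hl, mul_assoc]
  refine mul_le_mul_of_nonneg_left ?_ hC.le
  have hNleX : (N : ℝ) ≤ X := by rw [hN]; exact_mod_cast Nat.div_le_self X a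
  have hL0 : 0 < L := by linarith
  have hD : l ^ D ≤ 2 ^ D * L ^ D := by
    rw [← mul_pow]
    exact pow_le_pow_left₀ hl0.le (by linarith) D
  rw [mul_div_assoc', div_le_div_iff₀ (by positivity) (by positivity)]
  calc (N : ℝ) * l ^ D ≤ X * (2 ^ D * L ^ D) :=
        mul_le_mul hNleX hD (by positivity) (Nat.cast_nonneg X)
    _ = _ := by ring

end FA.PrimeLinearEquation
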