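import Fermat.Agent.PrimeLinearEquation.Arcs

/-!
# The mean square of the error for `a p + b q = n`

`∑_{n ≤ X} (∑_{a i + b j = n} Λ i Λ j - 𝔖_{a, b} n n / (a b))² = O (X³ / (log X) ^ e)` for coprime
`a` and `b`: the circle method on the points `h / (3 a b X)`, with Bessel's identity off the arcs.
-/

set_option autoImplicit false

noncomputable section

namespace FA.PrimeLinearEquation

open Finset Complex ArithmeticFunction
open FA.ThreePrimes (eAdd nearDist clip trigSum geomSum twist arc arcCentres centre)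
open FA.AlmostGoldbach (pairConst)

/-- The sum off the arcs. -/
def minorSum (a b m X n : ℕ) : ℂ :=
  ∑ h ∈ minorPoints a b m X, twistMul a X ((h : ℝ) / gridSize a b X) *
    twistMul b X ((h : ℝ) / gridSize a b X) * eAdd (-(n * ((h : ℝ) / gridSize a b X)))

theorem twistMul_eq_trigSum (c X : ℕ) (x : ℝ) :
    twistMul c X x = trigSum (fun i => (Λ i : ℂ)) (X / c) (c * x) := rfl

theorem norm_twistMul_le (c X : ℕ) (x : ℝ) : ‖twistMul c X x‖ ≤ 6 * X := by
  refine (ThreePrimes.norm_twist_le _ _).trans ?_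
  exact mul_le_mul_of_nonneg_left (Nat.cast_le.2 (Nat.div_le_self X c)) (by norm_num)

theorem norm_geomMul_le_clip (c X : ℕ) (x : ℝ) : ‖geomMul c X x‖ ≤ clip X (c * x) := by
  refine (ThreePrimes.norm_geom_le _ 0 _).trans (ThreePrimes.clip_mono ?_ _)
  exact_mod_cast (Nat.div_le_self X c)

theorem gridSize_pos {a b X : ℕ} (ha : 0 < a) (hb : 0 < b) (hX : 0 < X) : 0 < gridSize a b X := by
  unfold gridSize
  positivity

theorem lt_grid {c d X : ℕ} (hd : 0 < d) (hX : 0 < X) : X / c < d * (3 * X) := by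
  refine lt_of_le_of_lt (Nat.div_le_self X c) ?_
  calc X < 3 * X := by omega
    _ ≤ d * (3 * X) := Nat.le_mul_of_pos_left _ hd

/-- **The arcs left out, in mean square.** -/
theorem exists_minor_mean (a b m : ℕ) (ha : 0 < a) (hb : 0 < b) : ∃ (C : ℝ) (X₀ : ℕ), 0 < C ∧
    ∀ X : ℕ, X₀ ≤ X → level m X ≤ √(X : ℝ) →
      ∑ n ∈ Icc 1 X, (‖minorSum a b m X n‖ / gridSize a b X) ^ 2 ≤
        C * ((X : ℝ) ^ 3 * (Real.log X ^ 9 / (Real.log X ^ m) ^ 2)) := by
  obtain ⟨C, X₁, hC, hmin⟩ := exists_minor_mul_le a b m ha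
  refine ⟨6 * C ^ 2, max X₁ 2, by positivity, fun X hX hRX => ?_⟩
  have hX2 : 2 ≤ X := le_trans (le_max_right _ _) hX
  obtain ⟨M, hM⟩ : ∃ M, M = gridSize a b X := ⟨_, rfl⟩
  have hM0 : 0 < M := hM ▸ gridSize_pos ha hb (by omega)
  have hM0' : (0 : ℝ) < M := Nat.cast_pos.2 hM0
  obtain ⟨l, hl⟩ : ∃ l, l = Real.log X := ⟨_, rfl⟩
  have hl0 : 0 ≤ l := hl ▸ Real.log_natCast_nonneg X
  have hXM : X < M := by
    rw [hM, gridSize]
    calc X < 3 * X := by omega
      _ ≤ a * (b * (3 * X)) :=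
          (Nat.le_mul_of_pos_left _ hb).trans (Nat.le_mul_of_pos_left _ ha)
  rw [← hM, ← hl]
  simp only [div_pow, ← sum_div]
  rw [div_le_iff₀ (by positivity)]
  refine (sum_le_sum_of_subset_of_nonneg (t := range M) (fun n hn => ?_)
    fun n _ _ => sq_nonneg _).trans ?_
  · rw [mem_Icc] at hn
    rw [mem_range]
    omega
  simp only [minorSum, ← hM]
  rw [AlmostGoldbach.sum_norm_sq_coeff hM0 (minorPoints a b m X)
    (by rw [minorPoints, ← hM]; exact sdiff_subset)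
    fun h : ℕ => twistMul a X ((h : ℝ) / M) * twistMul b X ((h : ℝ) / M)]
  obtain ⟨G, hG⟩ : ∃ G, G = C * (X * l ^ 4 / l ^ m) := ⟨_, rfl⟩
  refine (mul_le_mul_of_nonneg_left
    (show ∑ h ∈ minorPoints a b m X, ‖twistMul a X ((h : ℝ) / M) * twistMul b X ((h : ℝ) / M)‖ ^ 2 ≤
      G ^ 2 * (M * (6 * X * l)) from (sum_le_sum (g := fun h : ℕ =>
        G ^ 2 * ‖twistMul b X ((h : ℝ) / M)‖ ^ 2) fun h hh => ?_).trans ?_)
    hM0'.le).trans (le_of_eq ?_)
  · rw [norm_mul, mul_pow]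
    refine mul_le_mul_of_nonneg_right (pow_le_pow_left₀ (norm_nonneg _) ?_ 2) (sq_nonneg _)
    have := hmin X (le_trans (le_max_left _ _) hX) hRX h hh
    rwa [← hM, ← hl, ← hG] at this
  · rw [← mul_sum]
    refine mul_le_mul_of_nonneg_left ((sum_le_sum_of_subset_of_nonneg (t := range M)
      (by rw [minorPoints, ← hM]; exact sdiff_subset) fun i _ _ => sq_nonneg _).trans ?_)
      (sq_nonneg _)
    simp only [twistMul_eq_trigSum]
    rw [hM, gridSize, Nat.mul_left_comm a b (3 * X),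
      sum_norm_sq_mul_grid (fun i => (Λ i : ℂ)) hb (lt_grid ha (show 0 < X by omega)),
      ← mul_assoc, ← Nat.cast_mul]
    refine mul_le_mul_of_nonneg_left ?_ (Nat.cast_nonneg _)
    refine (sum_le_sum (g := fun i => l * Λ i) fun i hi => ?_).trans ?_
    · rw [mem_Icc] at hi
      rw [Complex.norm_real, Real.norm_eq_abs, sq_abs, sq, hl]
      exact mul_le_mul_of_nonneg_right (vonMangoldt_le_log.trans (Real.log_le_log
        (Nat.cast_pos.2 hi.1) (Nat.cast_le.2 (hi.2.trans (Nat.div_le_self X b)))))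
        vonMangoldt_nonneg
    · rw [← mul_sum, mul_comm _ l]
      refine mul_le_mul_of_nonneg_left ((ThreePrimes.sum_vonMangoldt_le _).trans ?_) hl0
      exact mul_le_mul_of_nonneg_left (Nat.cast_le.2 (Nat.div_le_self X b)) (by norm_num)
  · rw [hG]
    ring

/-- The model of one point. -/
def mainLin (a b X n : ℕ) (x : ℝ) : ℂ := geomMul a X x * geomMul b X x * eAdd (-(n * x))

theorem sum_mainLin_grid {a b X M n : ℕ} (hM : 3 * X ≤ M) (hn : n ≤ X) (θ : ℝ) :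
    ∑ h ∈ range M, mainLin a b X n ((h : ℝ) / M + θ) =
      M * linPair (fun _ => 1) (fun _ => 1) a b X n := by
  rw [← sum_product_grid (fun _ => (1 : ℂ)) (fun _ => (1 : ℂ)) hM hn θ]
  refine sum_congr rfl fun h _ => ?_
  simp only [mainLin, geomMul, geomSum, trigSum, one_mul]
  rfl

theorem abs_arcCoeff_le (c : ℕ) {q : ℕ} (hq : 0 < q) : |arcCoeff c q| ≤ 1 := by
  rw [arcCoeff, abs_div, Nat.abs_cast]
  refine div_le_one_of_le₀ ((ThreePrimes.abs_moebiusR_le _).trans ?_) (Nat.cast_nonneg _)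
  exact_mod_cast Nat.totient_pos.2 (Nat.div_pos (Nat.le_of_dvd hq (Nat.gcd_dvd_left q c))
    (Nat.gcd_pos_of_pos_left c hq))

/-- **The coefficients of all arcs.** -/
theorem sum_arcCentres_coeff {a b : ℕ} (hab : a.Coprime b) (n P : ℕ) :
    ∑ z ∈ arcCentres P,
      ((arcCoeff a z.1 * arcCoeff b z.1 : ℝ) : ℂ) * eAdd (-(n * centre z)) =
        ((∑ q ∈ Icc 1 P, linTerm a b n q : ℝ) : ℂ) := by
  rw [arcCentres, sum_sigma, Complex.ofReal_sum]
  refine sum_congr rfl fun q hq => ?_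
  rw [mem_Icc] at hq
  simp only
  rw [← mul_sum, arcCoeff_mul hab, linTerm_apply, AlmostGoldbach.pairTerm_apply]
  push_cast
  rw [ThreePrimes.ramanujan_eq hq.1]
  rw [sum_congr rfl fun r _ => show eAdd (-((n : ℝ) * centre ⟨q, r⟩)) =
    eAdd (((-n : ℤ) : ℝ) * r / q) by simp only [centre]; push_cast; ring_nf]
  push_cast
  ring

theorem sum_norm_arcCentres_coeff_le {a b : ℕ} (ha : 0 < a) (hb : 0 < b) (hab : a.Coprime b)
    (P : ℕ) :
    ∑ z ∈ arcCentres P, |arcCoeff a z.1 * arcCoeff b z.1| ≤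
      (a : ℝ) * b * (2 * √(P : ℝ) * ∑' q : ℕ, (q : ℝ) ^ (-(5 / 4) : ℝ)) := by
  rw [arcCentres, sum_sigma]
  refine le_trans (sum_le_sum (g := fun q : ℕ =>
    (a : ℝ) * b * (2 * √(P : ℝ) * (q : ℝ) ^ (-(5 / 4) : ℝ))) fun q hq => ?_) ?_
  · rw [mem_Icc] at hq
    refine (sum_le_card_nsmul _ _ ((a : ℝ) * b / (q.totient : ℝ) ^ 2) fun r _ => ?_).trans ?_
    · rw [arcCoeff_mul hab, abs_div, abs_pow, Nat.abs_cast, abs_mul, abs_pow, abs_mul]
      refine div_le_div_of_nonneg_right ?_ (by positivity)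
      refine (mul_le_of_le_one_left (by positivity)
        (pow_le_one₀ (abs_nonneg _) (ThreePrimes.abs_moebiusR_le q))).trans ?_
      exact mul_le_mul (abs_gcdWeight_le ha q) (abs_gcdWeight_le hb q) (abs_nonneg _)
        (Nat.cast_nonneg a)
    · rw [ThreePrimes.card_unitResidues, nsmul_eq_mul]
      refine le_trans (le_of_eq ?_)
        (mul_le_mul_of_nonneg_left (AlmostGoldbach.inv_totient_le hq.1 hq.2) (by positivity))
      have : (q.totient : ℝ) ≠ 0 := Nat.cast_ne_zero.2 (Nat.totient_pos.2 hq.1).ne'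
      field_simp
  · rw [← mul_sum, ← mul_sum]
    exact mul_le_mul_of_nonneg_left (mul_le_mul_of_nonneg_left (Summable.sum_le_tsum _
      (fun i _ => by positivity) (Real.summable_nat_rpow.2 (by norm_num))) (by positivity))
      (by positivity)

/-- **Off one arc.** -/
theorem sum_norm_mainLin_off_arc_le {a b X : ℕ} (ha : 0 < a) (hb : 0 < b) (hX : 0 < X) {u v : ℤ}
    (huv : u * a + v * b = 1) {δ l : ℝ} (hδ : 0 < δ) (hl : 1 ≤ l)
    (hlog : 1 + Real.log (gridSize a b X) ≤ 3 * l) (n : ℕ) (z : Σ _ : ℕ, ℕ) :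
    ‖∑ h ∈ range (gridSize a b X) \ arc (gridSize a b X) δ z,
        mainLin a b X n ((h : ℝ) / gridSize a b X + -centre z)‖ ≤
      (|(u : ℝ)| + |(v : ℝ)|) / (2 * δ) * ((5 * ((a : ℝ) + b) + 36 * (a * b)) * (X * l)) := by
  obtain ⟨M, hM⟩ : ∃ M, M = gridSize a b X := ⟨_, rfl⟩
  rw [← hM] at hlog ⊢
  obtain ⟨κ, hκ⟩ : ∃ κ : ℝ, κ = |(u : ℝ)| + |(v : ℝ)| := ⟨_, rfl⟩
  rw [← hκ]
  have hκ0 : 0 < κ := by
    rcases eq_or_ne u 0 with rfl | hu
    · have : v ≠ 0 := fun h => by simp [h] at huv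
      rw [hκ]
      have := abs_pos.2 (Int.cast_ne_zero.2 this : (v : ℝ) ≠ 0)
      positivity
    · rw [hκ]
      have := abs_pos.2 (Int.cast_ne_zero.2 hu : (u : ℝ) ≠ 0)
      positivity
  obtain ⟨Z, hZ⟩ : ∃ Z, Z = κ / (2 * δ) := ⟨_, rfl⟩
  have hZ0 : 0 ≤ Z := by rw [hZ]; positivity
  rw [← hZ]
  refine (norm_sum_le _ _).trans ((sum_le_sum (g := fun h : ℕ =>
    Z * (clip X (a * ((h : ℝ) / M - centre z)) + clip X (b * ((h : ℝ) / M - centre z))))
    fun h hh => ?_).trans ?_)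
  · rw [mem_sdiff, arc, mem_filter, not_and, not_le] at hh
    have hd := hh.2 hh.1
    rw [← sub_eq_add_neg, mainLin, norm_mul, norm_mul, ThreePrimes.norm_eAdd, mul_one]
    obtain ⟨y, hy⟩ : ∃ y : ℝ, y = (h : ℝ) / M - centre z := ⟨_, rfl⟩
    rw [← hy] at hd ⊢
    have hX0 : (0 : ℝ) ≤ X := Nat.cast_nonneg X
    have ca := ThreePrimes.clip_nonneg hX0 ((a : ℝ) * y)
    have cb := ThreePrimes.clip_nonneg hX0 ((b : ℝ) * y)
    have hb1 := norm_geomMul_le_clip a X y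
    have hb2 := norm_geomMul_le_clip b X y
    have hone : ∀ c : ℕ, δ / κ < nearDist ((c : ℝ) * y) → clip X ((c : ℝ) * y) ≤ Z := fun c hc => by
      have hpos : 0 < nearDist ((c : ℝ) * y) := lt_trans (by positivity) hc
      refine (ThreePrimes.clip_le_inv hpos le_rfl).trans ?_
      rw [hZ, show κ / (2 * δ) = 1 / (2 * (δ / κ)) by field_simp]
      exact one_div_le_one_div_of_le (by positivity) (by linarith)
    rcases lt_or_ge (δ / κ) (nearDist ((a : ℝ) * y)) with h1 | h1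
    · refine (mul_le_mul (hb1.trans (hone a h1)) hb2 (norm_nonneg _) hZ0).trans ?_
      exact mul_le_mul_of_nonneg_left (by linarith) hZ0
    rcases lt_or_ge (δ / κ) (nearDist ((b : ℝ) * y)) with h2 | h2
    · rw [mul_comm ‖_‖]
      refine (mul_le_mul (hb2.trans (hone b h2)) hb1 (norm_nonneg _) hZ0).trans ?_
      exact mul_le_mul_of_nonneg_left (by linarith) hZ0
    exfalso
    have h3 := nearDist_le_bezout huv y
    have h4 : |(u : ℝ)| * nearDist (a * y) + |(v : ℝ)| * nearDist (b * y) ≤ κ * (δ / κ) := by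
      rw [hκ, add_mul]
      exact add_le_add (mul_le_mul_of_nonneg_left (hκ ▸ h1) (abs_nonneg _))
        (mul_le_mul_of_nonneg_left (hκ ▸ h2) (abs_nonneg _))
    rw [mul_div_cancel₀ _ hκ0.ne'] at h4
    linarith
  rw [← mul_sum]
  refine mul_le_mul_of_nonneg_left ?_ hZ0
  refine (sum_le_sum_of_subset_of_nonneg sdiff_subset fun i _ _ => add_nonneg
    (ThreePrimes.clip_nonneg (Nat.cast_nonneg X) _)
    (ThreePrimes.clip_nonneg (Nat.cast_nonneg X) _)).trans ?_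
  rw [sum_add_distrib]
  have hone : ∀ c d : ℕ, 0 < c → 0 < d → M = c * (d * (3 * X)) →
      ∑ h ∈ range M, clip X (c * ((h : ℝ) / M - centre z)) ≤
        5 * c * (X * l) + 6 * (M * l) := by
    intro c d hc hd hMc
    have hd' : 0 < d * (3 * X) := by positivity
    have h1 := sum_clip_mul_grid_le hc hd' (centre z) (Z := (X : ℝ)) (Nat.cast_nonneg X)
    rw [← hMc] at h1
    refine h1.trans ?_
    have h2 : Real.log (d * (3 * X) : ℕ) ≤ Real.log M := by
      refine Real.log_le_log (Nat.cast_pos.2 hd') (Nat.cast_le.2 ?_)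
      rw [hMc]
      exact Nat.le_mul_of_pos_left _ hc
    have h3 : (M : ℝ) = c * ((d * (3 * X) : ℕ) : ℝ) := by rw [hMc]; push_cast; ring
    have h4 : (c : ℝ) * (5 * X) * 1 ≤ c * (5 * X) * l :=
      mul_le_mul_of_nonneg_left hl (by positivity)
    have h5 := mul_le_mul_of_nonneg_left (show 1 + Real.log (d * (3 * X) : ℕ) ≤ 3 * l by linarith)
      (Nat.cast_nonneg (α := ℝ) M)
    rw [mul_add, ← mul_assoc _ _ (1 + _), mul_left_comm (c : ℝ) 2, ← h3]
    linarith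
  have hA := hone a b ha hb hM
  have hB := hone b a hb ha (hM.trans (Nat.mul_left_comm a b _))
  have hM' : (M : ℝ) = 3 * (a * b) * X := by rw [hM, gridSize]; push_cast; ring
  refine (add_le_add hA hB).trans (le_of_eq ?_)
  rw [hM']
  ring

/-- **One value of `n`.** -/
theorem exists_pointwise (a b m : ℕ) (ha : 0 < a) (hb : 0 < b) (hab : a.Coprime b) :
    ∃ (C : ℝ) (X₀ : ℕ), 0 < C ∧ ∀ X : ℕ, X₀ ≤ X → level m X ≤ √(X : ℝ) ∧ ∀ n ∈ Icc 1 X,
      ‖linPair (fun i => (Λ i : ℂ)) (fun i => (Λ i : ℂ)) a b X n -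
          (((∑ q ∈ Icc 1 (denBound m X), linTerm a b n q) * (linSolutions a b X n).card : ℝ) : ℂ)‖ ≤
        ‖minorSum a b m X n‖ / gridSize a b X + C * (X / Real.log X ^ m) := by
  obtain ⟨Ca, Xa, hCa, hmaja⟩ := exists_major_mul_le a b m (7 * m + 8) ha
  obtain ⟨Cb, Xb, hCb, hmajb⟩ := exists_major_mul_le b a m (7 * m + 8) hb
  obtain ⟨K, hK, hpow⟩ := ThreePrimes.exists_log_pow_le (6 * (m + 1))
  obtain ⟨u, v, huv⟩ : ∃ u v : ℤ, u * a + v * b = 1 :=
    Int.isCoprime_iff_nat_coprime.2 (by simpa using hab)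
  obtain ⟨Z₁, hZ₁⟩ : ∃ Z₁ : ℝ, Z₁ = ∑' q : ℕ, (q : ℝ) ^ (-(5 / 4) : ℝ) := ⟨_, rfl⟩
  have hZ₁0 : 0 ≤ Z₁ := hZ₁ ▸ tsum_nonneg fun q => by positivity
  obtain ⟨K₁, hK₁⟩ : ∃ K₁ : ℝ, K₁ = (5 + 36 * ((a : ℝ) * b)) * (7 * (Ca + Cb)) := ⟨_, rfl⟩
  obtain ⟨K₂, hK₂⟩ : ∃ K₂ : ℝ, K₂ = (a : ℝ) * b * (2 * Z₁) *
      ((|(u : ℝ)| + |(v : ℝ)|) * (5 * ((a : ℝ) + b) + 36 * (a * b))) := ⟨_, rfl⟩
  have hK₁0 : 0 ≤ K₁ := by rw [hK₁]; positivity
  have hK₂0 : 0 ≤ K₂ := by rw [hK₂]; positivity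
  refine ⟨K₁ + K₂ + 1, max (max Xa Xb) (max (⌈(2 * K + 1) ^ 2⌉₊) (max 8 (3 * (a * b)))),
    by positivity, fun X hX => ?_⟩
  simp only [max_le_iff] at hX
  obtain ⟨⟨hXa, hXb⟩, hXK, hX8, hXab⟩ := hX
  have hX1 : (1 : ℝ) ≤ X := by exact_mod_cast (show 1 ≤ X by omega)
  have hX0 : (0 : ℝ) < X := by linarith
  obtain ⟨l, hl⟩ : ∃ l, l = Real.log X := ⟨_, rfl⟩
  have hl2 : 2 ≤ l := by
    rw [hl, Real.le_log_iff_exp_le hX0, show (2 : ℝ) = ((2 : ℕ) : ℝ) * 1 by norm_num,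
      Real.exp_nat_mul]
    have h8 : (8 : ℝ) ≤ X := by exact_mod_cast hX8
    refine le_trans ?_ h8
    nlinarith [Real.exp_pos 1, Real.exp_one_lt_d9]
  have hl1 : 1 ≤ l := by linarith
  have hl0 : 0 < l := by linarith
  obtain ⟨R, hR⟩ : ∃ R, R = level m X := ⟨_, rfl⟩
  have hRl : R = l ^ (2 * (m + 1)) := by rw [hR, level, hl]
  have hR1 : 1 ≤ R := hRl ▸ one_le_pow₀ hl1
  have hR3 : 2 * R ^ 3 < X := by
    have h1 : (2 * K + 1) ^ 2 ≤ (X : ℝ) := (Nat.le_ceil _).trans (Nat.cast_le.2 hXK)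
    have h2 : 2 * K < √(X : ℝ) := by
      rw [Real.lt_sqrt (by positivity)]
      nlinarith
    rw [hRl, ← pow_mul, show 2 * (m + 1) * 3 = 6 * (m + 1) by ring]
    calc 2 * l ^ (6 * (m + 1)) ≤ 2 * K * √(X : ℝ) := by
          rw [mul_assoc]
          exact mul_le_mul_of_nonneg_left (hl ▸ hpow X hX1) two_pos.le
      _ < √(X : ℝ) * √(X : ℝ) := mul_lt_mul_of_pos_right h2 (Real.sqrt_pos.2 hX0)
      _ = X := Real.mul_self_sqrt (Nat.cast_nonneg X)
  refine ⟨?_, fun n hn => ?_⟩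
  · rw [← hR, Real.le_sqrt (by linarith) hX0.le]
    have : R ^ 2 ≤ R ^ 3 := pow_le_pow_right₀ hR1 (by norm_num)
    have : 0 ≤ R ^ 3 := by positivity
    linarith
  rw [mem_Icc] at hn
  obtain ⟨P, hP⟩ : ∃ P, P = denBound m X := ⟨_, rfl⟩
  have hPR : (P : ℝ) ≤ R := by
    rw [hP, denBound, ← hR]
    exact Nat.floor_le (by linarith)
  obtain ⟨M, hM⟩ : ∃ M, M = gridSize a b X := ⟨_, rfl⟩
  have hM1 : 0 < M := hM ▸ gridSize_pos ha hb (by omega)
  have : NeZero M := ⟨hM1.ne'⟩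
  have hM0 : (0 : ℝ) < M := Nat.cast_pos.2 hM1
  have hM' : (M : ℝ) = 3 * (a * b) * X := by rw [hM, gridSize]; push_cast; ring
  have hM3 : 3 * X ≤ M := by
    rw [hM, gridSize]
    exact (Nat.le_mul_of_pos_left _ hb).trans (Nat.le_mul_of_pos_left _ ha)
  have hlogM : 1 + Real.log M ≤ 3 * l := by
    have h1 : (M : ℝ) ≤ (X : ℝ) * X := by
      rw [hM']
      exact mul_le_mul_of_nonneg_right (by exact_mod_cast hXab) hX0.le
    have h2 := Real.log_le_log hM0 h1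
    rw [Real.log_mul hX0.ne' hX0.ne', ← hl] at h2
    linarith
  obtain ⟨δ, hδ⟩ : ∃ δ, δ = R / X := ⟨_, rfl⟩
  have hδ0 : 0 < δ := by rw [hδ]; positivity
  have hdisj : ((arcCentres P : Finset _) : Set (Σ _ : ℕ, ℕ)).PairwiseDisjoint (arc M δ) := by
    intro z hz w hw hne
    rw [Function.onFun, disjoint_left]
    intro h h1 h2
    rw [arc, mem_filter] at h1 h2
    have h3 := (ThreePrimes.inv_mul_le_nearDist_centre hz hw hne).trans
      ((ThreePrimes.nearDist_sub_sub_le _ _ _).trans (add_le_add h1.2 h2.2))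
    have hP0 : (0 : ℝ) < P := by
      rw [mem_coe, ThreePrimes.mem_arcCentres] at hz
      exact Nat.cast_pos.2 (by omega)
    rw [hδ, div_le_iff₀ (by positivity)] at h3
    have h4 : (R / X + R / X) * ((P : ℝ) * P) ≤ (R / X + R / X) * (R * R) :=
      mul_le_mul_of_nonneg_left (mul_le_mul hPR hPR hP0.le (by linarith)) (by positivity)
    have h5 : (R / X + R / X) * (R * R) < 1 := by
      rw [show (R / X + R / X) * (R * R) = 2 * R ^ 3 / X by ring, div_lt_one hX0]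
      exact hR3
    linarith
  obtain ⟨F, hF⟩ : ∃ F : ℕ → ℂ, F = fun h : ℕ =>
      twistMul a X ((h : ℝ) / M) * twistMul b X ((h : ℝ) / M) * eAdd (-(n * ((h : ℝ) / M))) :=
    ⟨_, rfl⟩
  obtain ⟨c, hc⟩ : ∃ c : (Σ _ : ℕ, ℕ) → ℂ, c = fun z =>
      ((arcCoeff a z.1 * arcCoeff b z.1 : ℝ) : ℂ) * eAdd (-(n * centre z)) := ⟨_, rfl⟩
  have htotal : ∑ h ∈ range M, F h =
      M * linPair (fun i => (Λ i : ℂ)) (fun i => (Λ i : ℂ)) a b X n := by
    rw [← sum_product_grid (fun i => (Λ i : ℂ)) (fun i => (Λ i : ℂ)) hM3 hn.2 0, hF]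
    refine sum_congr rfl fun h _ => ?_
    simp only [add_zero, twistMul_eq_trigSum]
  have hW : minorSum a b m X n = ∑ h ∈ range M \ (arcCentres P).biUnion (arc M δ), F h := by
    rw [minorSum, minorPoints, hF, ← hM, ← hP, ← hR, hδ]
  have hdecomp : ∑ h ∈ range M, F h =
      minorSum a b m X n + ∑ z ∈ arcCentres P, ∑ h ∈ arc M δ z, F h := by
    rw [hW, ← sum_biUnion hdisj, sum_sdiff]
    exact biUnion_subset.2 fun z _ => filter_subset _ _
  have q2 : ∀ z ∈ arcCentres P, ∀ h ∈ arc M δ z,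
      ‖F h - c z * mainLin a b X n ((h : ℝ) / M + -centre z)‖ ≤
        7 * (Ca + Cb) * (X * (X / l ^ (7 * m + 8))) := by
    intro z hz h hh
    have hz1 : 0 < z.1 := (ThreePrimes.mem_arcCentres.1 hz).1.1
    rw [hP] at hz
    rw [hM, hδ, hR] at hh
    have e1 := hmaja X hXa z hz h hh
    have e2 : ‖twistMul b X ((h : ℝ) / M) -
        (arcCoeff b z.1 : ℂ) * geomMul b X ((h : ℝ) / M - centre z)‖ ≤
          Cb * (X / Real.log X ^ (7 * m + 8)) := by
      have hswap : gridSize a b X = gridSize b a X := Nat.mul_left_comm a b _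
      rw [hM, hswap]
      exact hmajb X hXb z hz h (by rwa [hswap] at hh)
    rw [← hM, ← hl] at e1
    rw [← hl] at e2
    obtain ⟨x, hx⟩ : ∃ x : ℝ, x = (h : ℝ) / M := ⟨_, rfl⟩
    rw [← hx] at e1 e2
    rw [hF, hc]
    simp only
    rw [← sub_eq_add_neg, ← hx, mainLin]
    obtain ⟨A, hA⟩ : ∃ A : ℂ, A = (arcCoeff a z.1 : ℂ) * geomMul a X (x - centre z) := ⟨_, rfl⟩
    obtain ⟨B, hB⟩ : ∃ B : ℂ, B = (arcCoeff b z.1 : ℂ) * geomMul b X (x - centre z) := ⟨_, rfl⟩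
    have e : eAdd (-((n : ℝ) * centre z)) * eAdd (-(n * (x - centre z))) =
        eAdd (-(n * x)) := by
      rw [← ThreePrimes.eAdd_add]
      ring_nf
    rw [Complex.ofReal_mul, show (arcCoeff a z.1 : ℂ) * (arcCoeff b z.1 : ℂ) *
        eAdd (-((n : ℝ) * centre z)) *
        (geomMul a X (x - centre z) * geomMul b X (x - centre z) * eAdd (-(n * (x - centre z)))) =
        A * B * (eAdd (-((n : ℝ) * centre z)) * eAdd (-(n * (x - centre z)))) by
        rw [hA, hB]; ring, e, ← sub_mul, norm_mul, ThreePrimes.norm_eAdd, mul_one]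
    rw [← hA] at e1
    rw [← hB] at e2
    have hAn : ‖A‖ ≤ X := by
      rw [hA, norm_mul, Complex.norm_real, Real.norm_eq_abs]
      refine (mul_le_of_le_one_left (norm_nonneg _) (abs_arcCoeff_le a hz1)).trans ?_
      exact (norm_geomMul_le_clip a X _).trans (ThreePrimes.clip_le _ _)
    rw [show twistMul a X x * twistMul b X x - A * B =
      (twistMul a X x - A) * twistMul b X x + A * (twistMul b X x - B) by ring]
    refine (norm_add_le _ _).trans ?_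
    rw [norm_mul, norm_mul]
    refine (add_le_add (mul_le_mul e1 (norm_twistMul_le b X x) (norm_nonneg _) (by positivity))
      (mul_le_mul hAn e2 (norm_nonneg _) hX0.le)).trans ?_
    have h1 : 0 ≤ Ca * ((X : ℝ) * (X / l ^ (7 * m + 8))) := by positivity
    have h2 : 0 ≤ Cb * ((X : ℝ) * (X / l ^ (7 * m + 8))) := by positivity
    linarith
  have hpairs : ((arcCentres P).card : ℝ) ≤ R ^ 2 := by
    have h1 : (arcCentres P).card ≤ P * P := by
      rw [arcCentres, card_sigma]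
      refine (sum_le_card_nsmul _ _ P fun q hq => ?_).trans (le_of_eq ?_)
      · rw [ThreePrimes.card_unitResidues]
        exact (Nat.totient_le q).trans (mem_Icc.1 hq).2
      · simp
    refine (Nat.cast_le.2 h1).trans ?_
    push_cast
    rw [sq]
    exact mul_le_mul hPR hPR (Nat.cast_nonneg P) (by linarith)
  have q3 : ‖∑ z ∈ arcCentres P, ∑ h ∈ arc M δ z,
      (F h - c z * mainLin a b X n ((h : ℝ) / M + -centre z))‖ ≤
        K₁ * (R ^ 3 * l * (X * (X / l ^ (7 * m + 8)))) := by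
    refine (norm_sum_le _ _).trans ((sum_le_card_nsmul _ _
      ((5 + 36 * ((a : ℝ) * b)) * (R * l) * (7 * (Ca + Cb) * (X * (X / l ^ (7 * m + 8)))))
      fun z hz => ?_).trans ?_)
    · refine (norm_sum_le _ _).trans ((sum_le_card_nsmul _ _ _ (q2 z hz)).trans ?_)
      rw [nsmul_eq_mul]
      refine mul_le_mul_of_nonneg_right ((ThreePrimes.card_arc_le hδ0 z).trans ?_) (by positivity)
      have h1 : 4 * (M : ℝ) * δ * (1 + Real.log M) ≤ 36 * ((a : ℝ) * b) * (R * l) := by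
        refine (mul_le_mul_of_nonneg_left hlogM (by positivity)).trans (le_of_eq ?_)
        rw [hM', hδ]
        field_simp
        ring
      have h2 : 1 * 1 ≤ R * l := mul_le_mul hR1 hl1 zero_le_one (by linarith)
      linarith
    · rw [nsmul_eq_mul]
      refine (mul_le_mul_of_nonneg_right hpairs (by positivity)).trans (le_of_eq ?_)
      rw [hK₁]
      ring
  have q5 : ‖∑ z ∈ arcCentres P, c z *
      ∑ h ∈ range M \ arc M δ z, mainLin a b X n ((h : ℝ) / M + -centre z)‖ ≤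
        K₂ * (√(P : ℝ) * (X * (X * l) / R)) := by
    refine (norm_sum_le _ _).trans ((sum_le_sum (g := fun z : Σ _ : ℕ, ℕ =>
      |arcCoeff a z.1 * arcCoeff b z.1| * ((|(u : ℝ)| + |(v : ℝ)|) / (2 * δ) *
        ((5 * ((a : ℝ) + b) + 36 * (a * b)) * (X * l)))) fun z _ => ?_).trans ?_)
    · rw [norm_mul, hc, norm_mul, ThreePrimes.norm_eAdd, mul_one, Complex.norm_real,
        Real.norm_eq_abs, hM]
      exact mul_le_mul_of_nonneg_left (sum_norm_mainLin_off_arc_le ha hb (by omega) huv hδ0 hl1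
        (hM ▸ hlogM) n z) (abs_nonneg _)
    · rw [← sum_mul]
      refine (mul_le_mul_of_nonneg_right (sum_norm_arcCentres_coeff_le ha hb hab P)
        (by positivity)).trans ?_
      rw [← hZ₁, hK₂, hδ]
      have h1 : 0 ≤ (a : ℝ) * b * Z₁ * ((|(u : ℝ)| + |(v : ℝ)|) *
          (5 * ((a : ℝ) + b) + 36 * (a * b))) * (√(P : ℝ) * (X * (X * l) / R)) := by positivity
      have h2 : (a : ℝ) * b * (2 * √(P : ℝ) * Z₁) * ((|(u : ℝ)| + |(v : ℝ)|) / (2 * (R / X)) *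
          ((5 * ((a : ℝ) + b) + 36 * (a * b)) * (X * l))) =
          (a : ℝ) * b * Z₁ * ((|(u : ℝ)| + |(v : ℝ)|) *
            (5 * ((a : ℝ) + b) + 36 * (a * b))) * (√(P : ℝ) * (X * (X * l) / R)) := by
        have : R ≠ 0 := by linarith
        field_simp
      linarith
  have hident : ∑ h ∈ range M, F h -
      (M : ℂ) * linPair (fun _ => 1) (fun _ => 1) a b X n * ∑ z ∈ arcCentres P, c z =
      minorSum a b m X n + ∑ z ∈ arcCentres P, ∑ h ∈ arc M δ z,
          (F h - c z * mainLin a b X n ((h : ℝ) / M + -centre z)) -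
        ∑ z ∈ arcCentres P, c z *
          ∑ h ∈ range M \ arc M δ z, mainLin a b X n ((h : ℝ) / M + -centre z) := by
    have h1 : ∀ z ∈ arcCentres P, (M : ℂ) * linPair (fun _ => 1) (fun _ => 1) a b X n * c z =
        ∑ h ∈ arc M δ z, c z * mainLin a b X n ((h : ℝ) / M + -centre z) +
          c z * ∑ h ∈ range M \ arc M δ z, mainLin a b X n ((h : ℝ) / M + -centre z) := by
      intro z _
      rw [← mul_sum, ← mul_add, add_comm (∑ h ∈ arc M δ z, _), sum_sdiff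
        (show arc M δ z ⊆ range M from filter_subset _ _), sum_mainLin_grid hM3 hn.2]
      ring
    rw [mul_sum, sum_congr rfl h1, sum_add_distrib, hdecomp]
    simp only [sum_sub_distrib]
    ring
  rw [← hP, ← hM, ← hl]
  refine le_of_mul_le_mul_left ?_ hM0
  rw [mul_add, mul_div_cancel₀ _ hM0.ne', ← Complex.norm_natCast M, ← norm_mul, mul_sub,
    Complex.ofReal_mul, Complex.ofReal_natCast, ← linPair_one, ← sum_arcCentres_coeff hab n P,
    mul_comm (∑ z ∈ arcCentres P, _) (linPair _ _ _ _ _ _), ← mul_assoc]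
  rw [hc] at hident
  rw [← htotal, hident, Complex.norm_natCast]
  refine (norm_sub_le _ _).trans ((add_le_add ((norm_add_le _ _).trans (add_le_add le_rfl
    (by simpa only [hc] using q3))) (by simpa only [hc] using q5)).trans ?_)
  rw [add_assoc]
  refine add_le_add le_rfl ?_
  have hMX : (X : ℝ) ≤ M := by exact_mod_cast le_trans (by omega : X ≤ 3 * X) hM3
  have e1 : R ^ 3 * l * ((X : ℝ) * (X / l ^ (7 * m + 8))) ≤ M * (X / l ^ m) := by
    have h1 : R ^ 3 * l / l ^ (7 * m + 8) ≤ 1 / l ^ m := by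
      rw [hRl, div_le_div_iff₀ (by positivity) (by positivity), ← pow_mul, ← pow_succ, ← pow_add,
        one_mul]
      exact pow_le_pow_right₀ hl1 (by omega)
    calc R ^ 3 * l * ((X : ℝ) * (X / l ^ (7 * m + 8)))
        = X * X * (R ^ 3 * l / l ^ (7 * m + 8)) := by ring
      _ ≤ M * X * (1 / l ^ m) :=
          mul_le_mul (mul_le_mul_of_nonneg_right hMX hX0.le) h1 (by positivity) (by positivity)
      _ = _ := by ring
  have e2 : √(P : ℝ) * ((X : ℝ) * (X * l) / R) ≤ M * (X / l ^ m) := by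
    have h1 : √(P : ℝ) ≤ l ^ (m + 1) := by
      refine (Real.sqrt_le_sqrt hPR).trans (le_of_eq ?_)
      rw [hRl, pow_mul', Real.sqrt_sq (by positivity)]
    calc √(P : ℝ) * ((X : ℝ) * (X * l) / R) ≤ l ^ (m + 1) * ((X : ℝ) * (X * l) / R) := by gcongr
      _ = (X : ℝ) * X / l ^ m := by
          rw [hRl, pow_mul']
          field_simp
          ring
      _ ≤ _ := by
          rw [mul_div_assoc]
          exact mul_le_mul_of_nonneg_right hMX (by positivity)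
  have e3 := mul_le_mul_of_nonneg_left e1 hK₁0
  have e4 := mul_le_mul_of_nonneg_left e2 hK₂0
  have e5 : 0 ≤ (M : ℝ) * (X / l ^ m) := by positivity
  linarith

theorem sum_sq_four_le (a b c d : ℝ) :
    (a + b + c + d) ^ 2 ≤ 4 * (a ^ 2 + b ^ 2 + c ^ 2 + d ^ 2) := by
  nlinarith [sq_nonneg (a - b), sq_nonneg (a - c), sq_nonneg (a - d), sq_nonneg (b - c),
    sq_nonneg (b - d), sq_nonneg (c - d)]

/-- **The mean square**, for large `X`. -/
theorem exists_mean_square_large (a b e : ℕ) (ha : 0 < a) (hb : 0 < b) (hab : a.Coprime b) :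
    ∃ (C : ℝ) (X₀ : ℕ), 0 < C ∧ ∀ X : ℕ, X₀ ≤ X →
      ∑ n ∈ Icc 1 X, ‖linPair (fun i => (Λ i : ℂ)) (fun i => (Λ i : ℂ)) a b X n -
          ((linSeries a b n * ((n : ℝ) / (a * b)) : ℝ) : ℂ)‖ ^ 2 ≤
        C * ((X : ℝ) ^ 3 / Real.log X ^ e) := by
  obtain ⟨m, hm⟩ : ∃ m, m = e + 10 := ⟨_, rfl⟩
  obtain ⟨C₁, X₁, hC₁, hpt⟩ := exists_pointwise a b m ha hb hab
  obtain ⟨C₂, X₂, hC₂, hmean⟩ := exists_minor_mean a b m ha hb
  obtain ⟨K, hK, hpow⟩ := ThreePrimes.exists_log_pow_le (e + 3)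
  obtain ⟨p, hp⟩ : ∃ p : ℝ, p = (a : ℝ) * b * pairConst := ⟨_, rfl⟩
  have hp0 : 0 ≤ p := by
    have := AlmostGoldbach.pairConst_nonneg
    rw [hp]; positivity
  refine ⟨4 * (C₂ + C₁ ^ 2 + 4 * p ^ 2 + 144 * p ^ 2 * (K + 1)), max (max X₁ X₂) 8,
    by positivity, fun X hX => ?_⟩
  simp only [max_le_iff] at hX
  obtain ⟨⟨hX₁, hX₂⟩, hX8⟩ := hX
  obtain ⟨hRX, hpt⟩ := hpt X hX₁
  have hmean := hmean X hX₂ hRX
  have hX1 : (1 : ℝ) ≤ X := by exact_mod_cast (show 1 ≤ X by omega)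
  obtain ⟨l, hl⟩ : ∃ l, l = Real.log X := ⟨_, rfl⟩
  rw [← hl] at hpt hmean ⊢
  have hl2 : 2 ≤ l := by
    rw [hl, Real.le_log_iff_exp_le (by linarith), show (2 : ℝ) = ((2 : ℕ) : ℝ) * 1 by norm_num,
      Real.exp_nat_mul]
    have h8 : (8 : ℝ) ≤ X := by exact_mod_cast hX8
    refine le_trans ?_ h8
    nlinarith [Real.exp_pos 1, Real.exp_one_lt_d9]
  have hl1 : 1 ≤ l := by linarith
  have hl0 : 0 < l := by linarith
  obtain ⟨E, hE⟩ : ∃ E : ℝ, E = (X : ℝ) ^ 3 / l ^ e := ⟨_, rfl⟩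
  rw [← hE]
  obtain ⟨P, hP⟩ : ∃ P, P = denBound m X := ⟨_, rfl⟩
  rw [← hP] at hpt
  obtain ⟨t, ht⟩ : ∃ t : ℝ, t = ((P + 1 : ℕ) : ℝ) ^ (-(1 / 4) : ℝ) := ⟨_, rfl⟩
  have ht0 : 0 ≤ t := by rw [ht]; positivity
  refine (sum_le_sum (g := fun n : ℕ => 4 * ((‖minorSum a b m X n‖ / gridSize a b X) ^ 2 +
    (C₁ * (X / l ^ m)) ^ 2 + (p * n.divisors.card * (X * t)) ^ 2 +
    (6 * p * n.divisors.card) ^ 2)) fun n hn => ?_).trans ?_
  · refine le_trans (pow_le_pow_left₀ (norm_nonneg _) ?_ 2) (sum_sq_four_le _ _ _ _)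
    have h1 := hpt n hn
    rw [mem_Icc] at hn
    have hn0 : n ≠ 0 := by omega
    obtain ⟨S, hS⟩ : ∃ S, S = ∑ q ∈ Icc 1 P, linTerm a b n q := ⟨_, rfl⟩
    obtain ⟨J, hJ⟩ : ∃ J : ℝ, J = ((linSolutions a b X n).card : ℝ) := ⟨_, rfl⟩
    rw [← hS, ← hJ] at h1
    rw [show linPair (fun i => (Λ i : ℂ)) (fun i => (Λ i : ℂ)) a b X n -
        ((linSeries a b n * ((n : ℝ) / (a * b)) : ℝ) : ℂ) =
      (linPair (fun i => (Λ i : ℂ)) (fun i => (Λ i : ℂ)) a b X n - ((S * J : ℝ) : ℂ)) +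
        ((S * (J - n / (a * b)) + n / (a * b) * (S - linSeries a b n) : ℝ) : ℂ) by
        push_cast; ring]
    refine (norm_add_le _ _).trans ?_
    rw [Complex.norm_real, Real.norm_eq_abs]
    have hd0 : (0 : ℝ) ≤ n.divisors.card := Nat.cast_nonneg _
    have h2 : |S * (J - n / (a * b))| ≤ 6 * p * n.divisors.card := by
      rw [abs_mul]
      refine (mul_le_mul (hS ▸ abs_sum_linTerm_le ha hb hn0 P)
        (hJ ▸ abs_card_linSolutions_sub_le ha hb hab hn.1 hn.2) (abs_nonneg _) ?_).trans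
        (le_of_eq ?_)
      · have := AlmostGoldbach.pairConst_nonneg
        positivity
      · rw [hp]; ring
    have h3 : |(n : ℝ) / (a * b) * (S - linSeries a b n)| ≤ p * n.divisors.card * (X * t) := by
      have hs : |S - linSeries a b n| ≤ p * n.divisors.card * t := by
        rw [abs_sub_comm, hS, hp, ht]
        refine (abs_linSeries_sub_le ha hb hn0 P).trans (le_of_eq ?_)
        ring
      have hnX : (n : ℝ) / (a * b) ≤ X := by
        refine (div_le_self (Nat.cast_nonneg n) ?_).trans (Nat.cast_le.2 hn.2)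
        exact one_le_mul_of_one_le_of_one_le (by exact_mod_cast ha) (by exact_mod_cast hb)
      rw [abs_mul, abs_of_nonneg (show (0 : ℝ) ≤ n / (a * b) by positivity)]
      refine (mul_le_mul hnX hs (abs_nonneg _) (Nat.cast_nonneg X)).trans (le_of_eq ?_)
      ring
    have h4 := abs_add_le (S * (J - n / (a * b))) ((n : ℝ) / (a * b) * (S - linSeries a b n))
    linarith
  rw [← mul_sum, sum_add_distrib, sum_add_distrib, sum_add_distrib, mul_assoc (4 : ℝ)]
  refine mul_le_mul_of_nonneg_left ?_ (by norm_num)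
  have hdiv : ∑ n ∈ Icc 1 X, (n.divisors.card : ℝ) ^ 2 ≤ 4 * X * l ^ 3 := by
    refine (ThreePrimes.sum_card_divisors_sq_le X).trans ?_
    rw [ThreePrimes.logOne, ← hl]
    have h := pow_le_pow_left₀ (by linarith) (show 1 + l ≤ 3 / 2 * l by linarith) 3
    have h3 := mul_le_mul_of_nonneg_left h (Nat.cast_nonneg (α := ℝ) X)
    have : (0 : ℝ) ≤ (X : ℝ) * l ^ 3 := by positivity
    nlinarith
  have hsmall : ∀ i j : ℕ, i + e ≤ j → l ^ i / l ^ j ≤ 1 / l ^ e := fun i j hij => by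
    rw [div_le_div_iff₀ (by positivity) (by positivity), one_mul, ← pow_add]
    exact pow_le_pow_right₀ hl1 hij
  have s1 : ∑ n ∈ Icc 1 X, (‖minorSum a b m X n‖ / gridSize a b X) ^ 2 ≤ C₂ * E := by
    refine hmean.trans (mul_le_mul_of_nonneg_left ?_ hC₂.le)
    rw [hE, div_eq_mul_one_div ((X : ℝ) ^ 3), ← pow_mul]
    exact mul_le_mul_of_nonneg_left (hsmall 9 (m * 2) (by omega)) (by positivity)
  have s2 : ∑ _n ∈ Icc 1 X, (C₁ * (X / l ^ m)) ^ 2 ≤ C₁ ^ 2 * E := by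
    rw [sum_const, nsmul_eq_mul, Nat.card_Icc, Nat.add_sub_cancel, hE,
      div_eq_mul_one_div ((X : ℝ) ^ 3)]
    calc (X : ℝ) * (C₁ * (X / l ^ m)) ^ 2 = C₁ ^ 2 * ((X : ℝ) ^ 3 * (l ^ 0 / l ^ (m * 2))) := by
          rw [pow_mul]; ring
      _ ≤ _ := mul_le_mul_of_nonneg_left (mul_le_mul_of_nonneg_left (hsmall 0 (m * 2) (by omega))
          (by positivity)) (sq_nonneg _)
  have ht2 : t ^ 2 ≤ 1 / l ^ (m + 1) := by
    have h1 : l ^ (2 * (m + 1)) ≤ ((P + 1 : ℕ) : ℝ) := by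
      push_cast
      rw [hP, denBound, level, ← hl]
      exact (Nat.lt_floor_add_one _).le
    rw [ht, ← Real.rpow_natCast, ← Real.rpow_mul (Nat.cast_nonneg _)]
    refine (Real.rpow_le_rpow_of_nonpos (by positivity) h1 (by norm_num)).trans (le_of_eq ?_)
    rw [one_div (l ^ (m + 1)), ← Real.rpow_natCast l (2 * (m + 1)), ← Real.rpow_mul hl0.le,
      ← Real.rpow_natCast l (m + 1), ← Real.rpow_neg hl0.le]
    push_cast
    ring_nf
  have s3 : ∑ n ∈ Icc 1 X, (p * n.divisors.card * (X * t)) ^ 2 ≤ 4 * p ^ 2 * E := by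
    calc ∑ n ∈ Icc 1 X, (p * n.divisors.card * (X * t)) ^ 2
        = p ^ 2 * (X : ℝ) ^ 2 * t ^ 2 * ∑ n ∈ Icc 1 X, (n.divisors.card : ℝ) ^ 2 := by
          rw [mul_sum]
          exact sum_congr rfl fun n _ => by ring
      _ ≤ p ^ 2 * (X : ℝ) ^ 2 * (1 / l ^ (m + 1)) * (4 * X * l ^ 3) := by gcongr
      _ = 4 * p ^ 2 * ((X : ℝ) ^ 3 * (l ^ 3 / l ^ (m + 1))) := by ring
      _ ≤ 4 * p ^ 2 * ((X : ℝ) ^ 3 * (1 / l ^ e)) := mul_le_mul_of_nonneg_left
          (mul_le_mul_of_nonneg_left (hsmall 3 (m + 1) (by omega)) (by positivity)) (by positivity)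
      _ = _ := by rw [hE]; ring
  have s4 : ∑ n ∈ Icc 1 X, (6 * p * n.divisors.card : ℝ) ^ 2 ≤ 144 * p ^ 2 * (K + 1) * E := by
    have h1 : (X : ℝ) * l ^ (e + 3) ≤ (K + 1) * (X : ℝ) ^ 3 := by
      refine (mul_le_mul_of_nonneg_left (hl ▸ hpow X hX1) (Nat.cast_nonneg X)).trans ?_
      have h2 : √(X : ℝ) ≤ (X : ℝ) ^ 2 := by
        rw [Real.sqrt_le_left (sq_nonneg _), ← pow_mul]
        exact le_self_pow₀ hX1 (by norm_num)
      calc (X : ℝ) * (K * √(X : ℝ)) ≤ X * ((K + 1) * (X : ℝ) ^ 2) := by gcongr; linarith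
        _ = _ := by ring
    calc ∑ n ∈ Icc 1 X, (6 * p * n.divisors.card : ℝ) ^ 2
        = 36 * p ^ 2 * ∑ n ∈ Icc 1 X, (n.divisors.card : ℝ) ^ 2 := by
          rw [mul_sum]
          exact sum_congr rfl fun n _ => by ring
      _ ≤ 36 * p ^ 2 * (4 * X * l ^ 3) := by gcongr
      _ = 144 * p ^ 2 * ((X : ℝ) * l ^ (e + 3) / l ^ e) := by rw [pow_add]; field_simp; ring
      _ ≤ 144 * p ^ 2 * ((K + 1) * (X : ℝ) ^ 3 / l ^ e) := by gcongr
      _ = _ := by rw [hE]; ring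
  linarith

end FA.PrimeLinearEquation
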