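import Fermat.Agent.PrimeLinearEquation.Singular
import Fermat.Agent.AlmostGoldbach.Circle
import Mathlib.Data.Int.CardIntervalMod

/-!
# The two sums on the grid

The orthogonality on the points `h / M`, the periodicity in `h`, the number of solutions of
`a i + b j = n` in positive integers, and the lower bound `‖y‖ ≪ max (‖a y‖, ‖b y‖)`.
-/

set_option autoImplicit false

noncomputable section

namespace FA.PrimeLinearEquation

open Finset Complex ArithmeticFunction
open FA.ThreePrimes (eAdd nearDist clip trigSum geomSum twist)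

/-- The pairs with `a i + b j = n`, weighted. -/
def linPair (f g : ℕ → ℂ) (a b X n : ℕ) : ℂ :=
  ∑ i ∈ Icc 1 (X / a), ∑ j ∈ Icc 1 (X / b), if a * i + b * j = n then f i * g j else 0

/-- The solutions. -/
def linSolutions (a b X n : ℕ) : Finset (ℕ × ℕ) :=
  (Icc 1 (X / a) ×ˢ Icc 1 (X / b)).filter fun z => a * z.1 + b * z.2 = n

/-- **The product on a translate of the grid.** -/
theorem sum_product_grid (f g : ℕ → ℂ) {a b X M n : ℕ} (hM : 3 * X ≤ M) (hn : n ≤ X) (θ : ℝ) :
    ∑ h ∈ range M, trigSum f (X / a) (a * (h / M + θ)) * trigSum g (X / b) (b * (h / M + θ)) *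
      eAdd (-(n * (h / M + θ))) = M * linPair f g a b X n := by
  have e : ∀ x : ℝ, trigSum f (X / a) (a * x) * trigSum g (X / b) (b * x) * eAdd (-(n * x)) =
      ∑ i ∈ Icc 1 (X / a), ∑ j ∈ Icc 1 (X / b),
        f i * g j * eAdd ((((a : ℤ) * i + b * j - n : ℤ) : ℝ) * x) := by
    intro x
    rw [trigSum, trigSum, sum_mul_sum, sum_mul]
    simp only [sum_mul]
    refine sum_congr rfl fun i _ => sum_congr rfl fun j _ => ?_
    push_cast
    rw [show ((a : ℝ) * i + b * j - n) * x = i * (a * x) + j * (b * x) + -(n * x) by ring,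
      ThreePrimes.eAdd_add, ThreePrimes.eAdd_add]
    ring
  simp only [e]
  rw [sum_comm, linPair, mul_sum]
  refine sum_congr rfl fun i hi => ?_
  rw [sum_comm, mul_sum]
  refine sum_congr rfl fun j hj => ?_
  rw [mem_Icc] at hi hj
  have hia : a * i ≤ X := (Nat.mul_le_mul_left a hi.2).trans (Nat.mul_div_le X a)
  have hjb : b * j ≤ X := (Nat.mul_le_mul_left b hj.2).trans (Nat.mul_div_le X b)
  simp only [mul_add, ThreePrimes.eAdd_add, ← mul_assoc]
  rw [← sum_mul, ← mul_sum]
  simp only [← mul_div_assoc]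
  have hX : 0 < M ∨ M = 0 := by omega
  rcases hX with hM0 | rfl
  · rw [ThreePrimes.sum_eAdd_grid hM0]
    by_cases h : a * i + b * j = n
    · have h' : ((a : ℤ) * i + b * j - n) = 0 := by
        have : ((a * i + b * j : ℕ) : ℤ) = n := by exact_mod_cast h
        push_cast at this
        linarith
      rw [if_pos h, h', if_pos (dvd_zero _)]
      simp
      ring
    · rw [if_neg h, if_neg]
      · simp
      · intro hd
        have hne : ((a : ℤ) * i + b * j - n) ≠ 0 := fun h' => h (by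
          have : ((a * i + b * j : ℕ) : ℤ) = n := by push_cast; linarith
          exact_mod_cast this)
        have := Int.le_of_dvd (abs_pos.2 hne) ((dvd_abs _ _).2 hd)
        have h1 : ((a : ℤ) * i) ≤ X := by exact_mod_cast hia
        have h2 : ((b : ℤ) * j) ≤ X := by exact_mod_cast hjb
        have h3 : (0 : ℤ) < a * i + b * j ∨ a * i + b * j = 0 := by
          rcases Nat.eq_zero_or_pos (a * i + b * j) with h0 | h0
          · exact Or.inr h0
          · exact Or.inl (by exact_mod_cast h0)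
        have : |((a : ℤ) * i + b * j - n)| < M := abs_lt.2 ⟨by omega, by omega⟩
        omega
  · simp

theorem linPair_one (a b X n : ℕ) :
    linPair (fun _ => 1) (fun _ => 1) a b X n = ((linSolutions a b X n).card : ℂ) := by
  rw [linSolutions, card_filter, sum_product, Nat.cast_sum, linPair]
  refine sum_congr rfl fun i _ => ?_
  rw [Nat.cast_sum]
  exact sum_congr rfl fun j _ => by split_ifs <;> simp

/-- **The number of solutions** is `n / (a b)` up to `3`. -/
theorem abs_card_linSolutions_sub_le {a b X n : ℕ} (ha : 0 < a) (hb : 0 < b) (hab : a.Coprime b)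
    (hn : 1 ≤ n) (hnX : n ≤ X) :
    |((linSolutions a b X n).card : ℝ) - n / (a * b)| ≤ 3 := by
  have : NeZero b := ⟨hb.ne'⟩
  obtain ⟨v, hv⟩ : ∃ v : ℕ, a * v ≡ n [MOD b] := by
    refine ⟨((n : ZMod b) * (a : ZMod b)⁻¹).val, (ZMod.natCast_eq_natCast_iff _ _ _).1 ?_⟩
    push_cast
    rw [ZMod.natCast_zmod_val, mul_left_comm, ZMod.coe_mul_inv_eq_one a hab, mul_one]
  obtain ⟨K, hK⟩ : ∃ K, K = (n - 1) / a := ⟨_, rfl⟩
  have hK1 : ∀ i, i ≤ K ↔ a * i + 1 ≤ n := fun i => by
    rw [hK, Nat.le_div_iff_mul_le ha, mul_comm]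
    omega
  have hcard : (linSolutions a b X n).card = ((Ioc 0 K).filter (· ≡ v [MOD b])).card := by
    refine card_nbij' Prod.fst (fun i => (i, (n - a * i) / b)) ?_ ?_ ?_ ?_
    · intro z hz
      simp only [linSolutions, coe_filter, mem_product, mem_Icc, Set.mem_ofPred_eq] at hz
      simp only [coe_filter, mem_Ioc, Set.mem_ofPred_eq]
      have hbz : 0 < b * z.2 := Nat.mul_pos hb (by omega)
      refine ⟨⟨by omega, (hK1 _).2 (by omega)⟩, ?_⟩
      refine Nat.ModEq.cancel_left_of_coprime hab.symm ?_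
      refine Nat.ModEq.trans ?_ hv.symm
      rw [← hz.2]
      exact (Nat.modEq_iff_dvd' (Nat.le_add_right _ _)).2 (by simp)
    · intro i hi
      simp only [coe_filter, mem_Ioc, Set.mem_ofPred_eq] at hi
      simp only [linSolutions, coe_filter, mem_product, mem_Icc, Set.mem_ofPred_eq]
      have h1 : a * i + 1 ≤ n := (hK1 _).1 hi.1.2
      have hd : b ∣ n - a * i :=
        (Nat.modEq_iff_dvd' (by omega)).1 ((hi.2.mul_left a).trans hv)
      have h2 : b * ((n - a * i) / b) = n - a * i := Nat.mul_div_cancel' hd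
      have h3 : 0 < (n - a * i) / b := Nat.div_pos (Nat.le_of_dvd (by omega) hd) hb
      refine ⟨⟨⟨hi.1.1, ?_⟩, h3, Nat.div_le_div_right (by omega)⟩, by omega⟩
      rw [Nat.le_div_iff_mul_le ha, mul_comm]
      omega
    · intro z hz
      simp only [linSolutions, coe_filter, mem_product, mem_Icc, Set.mem_ofPred_eq] at hz
      refine Prod.ext rfl ?_
      simp only
      rw [show n - a * z.1 = b * z.2 by omega, Nat.mul_div_cancel_left _ hb]
    · intro i _
      rfl
  have hcount : (((Ioc 0 K).filter (· ≡ v [MOD b])).card + if 0 ≡ v [MOD b] then 1 else 0) =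
      (K + 1) / b + if v % b < (K + 1) % b then 1 else 0 := by
    rw [← Nat.count_modEq_card _ hb, Nat.count_eq_card_filter_range, card_filter, card_filter,
      range_eq_Ico, show Ico 0 (K + 1) = insert 0 (Ioc 0 K) by ext; simp,
      sum_insert (by simp), add_comm]
  have hq : (((K + 1) / b : ℕ) : ℝ) * b ≤ K + 1 ∧
      ((K : ℝ) + 1) < ((((K + 1) / b : ℕ) : ℝ) + 1) * b := by
    refine ⟨by exact_mod_cast Nat.div_mul_le_self (K + 1) b, ?_⟩
    exact_mod_cast show K + 1 < ((K + 1) / b + 1) * b by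
      rw [mul_comm, mul_add, mul_one]
      have := Nat.div_add_mod (K + 1) b
      have := Nat.mod_lt (K + 1) hb
      omega
  have hKn : (a : ℝ) * K + 1 ≤ n ∧ (n : ℝ) ≤ a * (K + 1) := by
    refine ⟨by exact_mod_cast (hK1 K).1 le_rfl, ?_⟩
    exact_mod_cast show n ≤ a * (K + 1) by
      by_contra hlt
      have := (hK1 (K + 1)).2 (by omega)
      omega
  have ha' : (0 : ℝ) < a := Nat.cast_pos.2 ha
  have hb' : (0 : ℝ) < b := Nat.cast_pos.2 hb
  have hb1 : (1 : ℝ) ≤ b := by exact_mod_cast hb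
  have ha1 : (1 : ℝ) ≤ a := by exact_mod_cast ha
  obtain ⟨Q, hQ⟩ : ∃ Q : ℝ, Q = (((K + 1) / b : ℕ) : ℝ) := ⟨_, rfl⟩
  rw [← hQ] at hq
  have hc : |((linSolutions a b X n).card : ℝ) - Q| ≤ 1 := by
    have h := congrArg (fun x : ℕ => (x : ℝ)) hcount
    simp only [Nat.cast_add, ← hQ, ← hcard] at h
    rw [abs_le]
    split_ifs at h <;> push_cast at h <;> constructor <;> linarith
  have hd : |Q - n / (a * b)| ≤ 2 := by
    have h1 : (a : ℝ) * b * Q ≤ n + a * b := by
      have := mul_le_mul_of_nonneg_left hq.1 ha'.le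
      nlinarith
    have h2 : (n : ℝ) ≤ a * b * Q + a * b := by
      have := mul_le_mul_of_nonneg_left hq.2.le ha'.le
      nlinarith
    have h3 : Q ≤ n / (a * b) + 1 := by
      rw [← sub_le_iff_le_add, le_div_iff₀ (mul_pos ha' hb')]
      linarith
    have h4 : n / ((a : ℝ) * b) ≤ Q + 1 := by
      rw [div_le_iff₀ (mul_pos ha' hb')]
      linarith
    rw [abs_le]
    constructor <;> linarith
  calc |((linSolutions a b X n).card : ℝ) - n / (a * b)|
      ≤ |((linSolutions a b X n).card : ℝ) - Q| + |Q - n / (a * b)| := abs_sub_le _ _ _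
    _ ≤ 3 := by linarith

/-- A function of period one on a grid coarser by the factor `a`. -/
theorem sum_periodic_grid (G : ℝ → ℝ) (hG : ∀ (x : ℝ) (k : ℤ), G (x + k) = G x) {a M' : ℕ}
    (ha : 0 < a) (hM' : 0 < M') (s : ℝ) :
    ∑ h ∈ range (a * M'), G (a * ((h : ℝ) / (a * M' : ℕ)) + s) =
      a * ∑ h ∈ range M', G ((h : ℝ) / M' + s) := by
  have e : ∀ h : ℕ, (a : ℝ) * ((h : ℝ) / (a * M' : ℕ)) = (h : ℝ) / M' := fun h => by
    have : (a : ℝ) ≠ 0 := Nat.cast_ne_zero.2 ha.ne'
    push_cast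
    field_simp
  simp only [e]
  have key : ∀ k : ℕ, ∑ h ∈ range (k * M'), G ((h : ℝ) / M' + s) =
      k * ∑ h ∈ range M', G ((h : ℝ) / M' + s) := by
    intro k
    induction k with
    | zero => simp
    | succ k ih =>
      rw [Nat.succ_mul, sum_range_add, ih, Nat.cast_succ, add_mul, one_mul]
      congr 1
      refine sum_congr rfl fun h _ => ?_
      rw [← hG ((h : ℝ) / M' + s) k]
      have : (M' : ℝ) ≠ 0 := Nat.cast_ne_zero.2 hM'.ne'
      congr 1
      push_cast
      field_simp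
      ring
  exact key a

theorem clip_add_intCast (Z x : ℝ) (k : ℤ) : clip Z (x + k) = clip Z x := by
  unfold clip
  rw [ThreePrimes.nearDist_add_intCast]

/-- **Clipped sums along `a h / M`.** -/
theorem sum_clip_mul_grid_le {a M' : ℕ} (ha : 0 < a) (hM' : 0 < M') (c : ℝ) {Z : ℝ}
    (hZ : 0 ≤ Z) :
    ∑ h ∈ range (a * M'), clip Z (a * ((h : ℝ) / (a * M' : ℕ) - c)) ≤
      a * (5 * Z + 2 * M' * (1 + Real.log M')) := by
  have : NeZero M' := ⟨hM'.ne'⟩
  have e := sum_periodic_grid (clip Z) (clip_add_intCast Z) ha hM' (-(a * c))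
  simp only [← sub_eq_add_neg] at e
  simp only [mul_sub]
  rw [e]
  exact mul_le_mul_of_nonneg_left (ThreePrimes.sum_clip_grid_le _ hZ) (Nat.cast_nonneg a)

theorem trigSum_add_intCast (f : ℕ → ℂ) (N : ℕ) (x : ℝ) (k : ℤ) :
    trigSum f N (x + k) = trigSum f N x := by
  refine sum_congr rfl fun m _ => ?_
  rw [show (m : ℝ) * (x + k) = m * x + ((m * k : ℤ) : ℝ) by push_cast; ring,
    ThreePrimes.eAdd_add_intCast]

/-- **Parseval along `a h / M`.** -/
theorem sum_norm_sq_mul_grid (f : ℕ → ℂ) {a M' N : ℕ} (ha : 0 < a) (hN : N < M') :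
    ∑ h ∈ range (a * M'), ‖trigSum f N (a * ((h : ℝ) / (a * M' : ℕ)))‖ ^ 2 =
      a * (M' * ∑ m ∈ Icc 1 N, ‖f m‖ ^ 2) := by
  have e := sum_periodic_grid (fun x => ‖trigSum f N x‖ ^ 2)
    (fun x k => by simp only [trigSum_add_intCast]) ha (show 0 < M' by omega) 0
  simp only [add_zero] at e
  rw [e, ThreePrimes.sum_norm_sq_grid f hN]

/-- **`‖y‖` is bounded by `‖a y‖` and `‖b y‖`.** -/
theorem nearDist_le_bezout {a b : ℕ} {u v : ℤ} (h : u * a + v * b = 1) (y : ℝ) :
    nearDist y ≤ |(u : ℝ)| * nearDist (a * y) + |(v : ℝ)| * nearDist (b * y) := by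
  refine (ThreePrimes.nearDist_le_abs_sub y
    (u * round ((a : ℝ) * y) + v * round ((b : ℝ) * y))).trans ?_
  have hR : (u : ℝ) * a + v * b = 1 := by exact_mod_cast h
  unfold nearDist
  rw [← abs_mul, ← abs_mul]
  refine le_trans (le_of_eq ?_) (abs_add_le _ _)
  congr 1
  push_cast
  linear_combination (-y) * hR

end FA.PrimeLinearEquation
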