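import Fermat.Agent.PrimeLinearEquation.Circle
import Mathlib.Data.Nat.ChineseRemainder

/-!
# `a p + b q = n` for almost all `n`, and `a p + b q + c r = n` for all large `n`

The mean square for all `X`, the exceptional sets, and, with the theorem of Siegel and Walfisz for
a fixed modulus, the ternary equation.
-/

set_option autoImplicit false

noncomputable section

namespace FA.PrimeLinearEquation

open Finset ArithmeticFunction
open FA.ThreePrimes (powerPart)

/-- The weight of the solutions. -/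
def linWeight (a b n : ℕ) : ℝ := ∑ z ∈ linSolutions a b n n, Λ z.1 * Λ z.2

/-- The solutions in primes. -/
def linPrimePairs (a b n : ℕ) : Finset (ℕ × ℕ) :=
  (linSolutions a b n n).filter fun z => z.1.Prime ∧ z.2.Prime

theorem linSolutions_eq {a b X n : ℕ} (ha : 0 < a) (hb : 0 < b) (hn : n ≤ X) :
    linSolutions a b X n = linSolutions a b n n := by
  ext z
  simp only [linSolutions, mem_filter, mem_product, mem_Icc, Nat.le_div_iff_mul_le ha,
    Nat.le_div_iff_mul_le hb]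
  constructor
  · rintro ⟨⟨⟨h1, -⟩, h2, -⟩, h⟩
    exact ⟨⟨⟨h1, by rw [mul_comm]; omega⟩, h2, by rw [mul_comm]; omega⟩, h⟩
  · rintro ⟨⟨⟨h1, h3⟩, h2, h4⟩, h⟩
    exact ⟨⟨⟨h1, h3.trans hn⟩, h2, h4.trans hn⟩, h⟩

theorem linPair_cast {a b X n : ℕ} (ha : 0 < a) (hb : 0 < b) (hn : n ≤ X) :
    linPair (fun i => (Λ i : ℂ)) (fun i => (Λ i : ℂ)) a b X n = (linWeight a b n : ℂ) := by
  rw [linWeight, ← linSolutions_eq ha hb hn, linPair, linSolutions, sum_filter, sum_product,
    Complex.ofReal_sum]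
  refine sum_congr rfl fun i _ => ?_
  rw [Complex.ofReal_sum]
  exact sum_congr rfl fun j _ => by split_ifs <;> simp

/-- **The mean square.** -/
theorem exists_mean_square (a b e : ℕ) (ha : 0 < a) (hb : 0 < b) (hab : a.Coprime b) :
    ∃ C : ℝ, 0 < C ∧ ∀ X : ℕ, 2 ≤ X →
      ∑ n ∈ Icc 1 X, (linWeight a b n - linSeries a b n * (n / (a * b))) ^ 2 ≤
        C * ((X : ℝ) ^ 3 / Real.log X ^ e) := by
  obtain ⟨C, X₀, hC, h⟩ := exists_mean_square_large a b e ha hb hab
  obtain ⟨S₀, hS₀⟩ : ∃ S₀, S₀ =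
      ∑ n ∈ Icc 1 X₀, (linWeight a b n - linSeries a b n * (n / (a * b))) ^ 2 := ⟨_, rfl⟩
  obtain ⟨L, hL⟩ : ∃ L : ℝ, L = (Real.log X₀ + 1) ^ e := ⟨_, rfl⟩
  have hS0 : 0 ≤ S₀ := hS₀ ▸ sum_nonneg fun n _ => sq_nonneg _
  have hL0 : 0 < L := hL ▸ pow_pos (by linarith [Real.log_natCast_nonneg X₀]) e
  refine ⟨C + S₀ * L, by positivity, fun X hX => ?_⟩
  have hl : 0 < Real.log X := Real.log_pos (by exact_mod_cast hX)
  obtain ⟨E, hE⟩ : ∃ E : ℝ, E = (X : ℝ) ^ 3 / Real.log X ^ e := ⟨_, rfl⟩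
  rw [← hE]
  have hE0 : 0 ≤ E := by rw [hE]; positivity
  rcases le_or_gt X₀ X with hle | hlt
  · have h1 := h X hle
    rw [← hE] at h1
    refine (le_of_eq_of_le (sum_congr rfl fun n hn => ?_) h1).trans ?_
    · rw [linPair_cast ha hb (mem_Icc.1 hn).2, ← Complex.ofReal_sub, Complex.norm_real,
        Real.norm_eq_abs, sq_abs]
    · have : 0 ≤ S₀ * L * E := by positivity
      linarith
  · have h1 : ∑ n ∈ Icc 1 X, (linWeight a b n - linSeries a b n * (n / (a * b))) ^ 2 ≤ S₀ :=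
      hS₀ ▸ sum_le_sum_of_subset_of_nonneg (Icc_subset_Icc_right hlt.le) fun n _ _ => sq_nonneg _
    have h3 : 1 ≤ L * E := by
      rw [hE, mul_div_assoc', le_div_iff₀ (by positivity), one_mul]
      refine le_trans ?_ (le_mul_of_one_le_right hL0.le ?_)
      · refine hL ▸ pow_le_pow_left₀ hl.le ?_ e
        linarith [Real.log_le_log (show (0 : ℝ) < X by positivity) (Nat.cast_le.2 hlt.le :
          (X : ℝ) ≤ X₀)]
      · exact one_le_pow₀ (by exact_mod_cast (show 1 ≤ X by omega))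
    have h4 := mul_le_mul_of_nonneg_left h3 hS0
    have : 0 ≤ C * E := by positivity
    linarith

open scoped Classical in
/-- The `n ≤ X` with an error above `n / (log X) ^ A`. -/
def largeLinError (a b A X : ℕ) : Finset ℕ :=
  (Icc 1 X).filter fun n : ℕ =>
    (n : ℝ) / Real.log X ^ A < |linWeight a b n - linSeries a b n * (n / (a * b))|

/-- **Few large errors.** -/
theorem exists_card_largeLinError_le (a b A : ℕ) (ha : 0 < a) (hb : 0 < b) (hab : a.Coprime b) :
    ∃ C : ℝ, 0 < C ∧ ∀ X : ℕ, 2 ≤ X →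
      ((largeLinError a b A X).card : ℝ) ≤ C * ((X : ℝ) / Real.log X ^ A) := by
  classical
  obtain ⟨C, hC, h⟩ := exists_mean_square a b (5 * A) ha hb hab
  refine ⟨C + 1, by positivity, fun X hX => ?_⟩
  have hl : 0 < Real.log X := Real.log_pos (by exact_mod_cast hX)
  obtain ⟨T, hT⟩ : ∃ T : ℝ, T = (X : ℝ) / Real.log X ^ A := ⟨_, rfl⟩
  have hT0 : 0 < T := by rw [hT]; positivity
  rw [← hT, ← card_filter_add_card_filter_not (fun n : ℕ => (n : ℝ) ≤ T)
    (s := largeLinError a b A X), Nat.cast_add, add_mul, one_mul, add_comm]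
  refine add_le_add ?_ ?_
  · obtain ⟨S, hS⟩ : ∃ S, S = (largeLinError a b A X).filter fun n : ℕ => ¬ (n : ℝ) ≤ T :=
      ⟨_, rfl⟩
    rw [← hS]
    have h1 : (S.card : ℝ) * (T / Real.log X ^ A) ^ 2 ≤
        ∑ n ∈ Icc 1 X, (linWeight a b n - linSeries a b n * (n / (a * b))) ^ 2 := by
      refine le_trans ?_ (sum_le_sum_of_subset_of_nonneg (hS ▸ (filter_subset _ _).trans
        (filter_subset _ _)) fun n _ _ => sq_nonneg _)
      rw [← nsmul_eq_mul]
      refine card_nsmul_le_sum _ _ _ fun n hn => ?_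
      rw [hS, largeLinError, mem_filter, mem_filter, not_le] at hn
      rw [← sq_abs (linWeight a b n - linSeries a b n * (n / (a * b)))]
      exact pow_le_pow_left₀ (by positivity)
        ((div_le_div_of_nonneg_right hn.2.le (by positivity)).trans hn.1.2.le) 2
    have h2 := h1.trans (h X hX)
    rw [← le_div_iff₀ (by positivity)] at h2
    refine h2.trans (le_of_eq ?_)
    rw [hT]
    field_simp
    ring
  · refine le_trans (Nat.cast_le.2 (card_le_card (t := Icc 1 ⌊T⌋₊) fun n hn => ?_)) ?_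
    · rw [largeLinError, mem_filter, mem_filter, mem_Icc] at hn
      exact mem_Icc.2 ⟨hn.1.1.1, Nat.le_floor hn.2⟩
    · rw [Nat.card_Icc, Nat.add_sub_cancel]
      exact Nat.floor_le hT0.le

theorem linWeight_le {a b X n : ℕ} (ha : 0 < a) (hb : 0 < b) (hn : 1 ≤ n) (hnX : n ≤ X) :
    linWeight a b n ≤
      (linPrimePairs a b n).card * Real.log n ^ 2 + 4 * √(X : ℝ) * Real.log X ^ 2 := by
  classical
  obtain ⟨l, hl⟩ : ∃ l, l = Real.log X := ⟨_, rfl⟩
  rw [← hl]
  have hl0 : 0 ≤ l := hl ▸ Real.log_natCast_nonneg X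
  have hmem : ∀ z ∈ linSolutions a b n n, a * z.1 + b * z.2 = n ∧
      z.1 ∈ Icc 1 n ∧ z.2 ∈ Icc 1 n := by
    intro z hz
    simp only [linSolutions, mem_filter, mem_product, mem_Icc] at hz
    simp only [mem_Icc]
    exact ⟨hz.2, ⟨hz.1.1.1, hz.1.1.2.trans (Nat.div_le_self n a)⟩, hz.1.2.1,
      hz.1.2.2.trans (Nat.div_le_self n b)⟩
  have hΛ : ∀ i ∈ Icc 1 n, Λ i ≤ Real.log n := fun i hi => by
    rw [mem_Icc] at hi
    exact vonMangoldt_le_log.trans (Real.log_le_log (Nat.cast_pos.2 hi.1) (Nat.cast_le.2 hi.2))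
  have hnl : Real.log n ≤ l := hl ▸ Real.log_le_log (Nat.cast_pos.2 hn) (Nat.cast_le.2 hnX)
  have hpp : ∀ π : ℕ × ℕ → ℕ, (∀ z ∈ linSolutions a b n n, π z ∈ Icc 1 X) →
      Set.InjOn π (linSolutions a b n n : Set (ℕ × ℕ)) →
      ∑ z ∈ linSolutions a b n n, powerPart (π z) ≤ 2 * √(X : ℝ) * l := by
    intro π hπ hinj
    rw [← sum_image hinj]
    refine (sum_le_sum_of_subset_of_nonneg (image_subset_iff.2 hπ)
      fun i _ _ => ThreePrimes.powerPart_nonneg i).trans ?_
    exact hl ▸ ThreePrimes.sum_powerPart_le (show 1 ≤ X by omega)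
  refine (sum_le_sum (g := fun z : ℕ × ℕ => (if z.1.Prime ∧ z.2.Prime then Real.log n ^ 2 else 0) +
    (l * powerPart z.1 + l * powerPart z.2)) fun z hz => ?_).trans ?_
  · obtain ⟨-, hz1, hz2⟩ := hmem z hz
    have h1 := hΛ _ hz1
    have h2 := hΛ _ hz2
    have e1 := mul_nonneg hl0 (ThreePrimes.powerPart_nonneg z.1)
    have e2 := mul_nonneg hl0 (ThreePrimes.powerPart_nonneg z.2)
    by_cases hi : z.1.Prime
    · by_cases hj : z.2.Prime
      · rw [if_pos ⟨hi, hj⟩]
        have := mul_le_mul h1 h2 vonMangoldt_nonneg (Real.log_natCast_nonneg n)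
        rw [← sq] at this
        linarith
      · rw [if_neg fun h => hj h.2, show powerPart z.2 = Λ z.2 from if_neg hj]
        have := mul_le_mul_of_nonneg_right (h1.trans hnl) (vonMangoldt_nonneg (n := z.2))
        linarith
    · rw [if_neg fun h => hi h.1, show powerPart z.1 = Λ z.1 from if_neg hi]
      have := mul_le_mul_of_nonneg_left (h2.trans hnl) (vonMangoldt_nonneg (n := z.1))
      linarith
  rw [sum_add_distrib, sum_add_distrib, ← mul_sum, ← mul_sum, ← sum_filter, sum_const,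
    nsmul_eq_mul]
  refine add_le_add le_rfl ?_
  have hu := hpp Prod.fst (fun z hz => Icc_subset_Icc_right hnX (hmem z hz).2.1) (by
    intro z hz w hw h
    have h1 := (hmem z hz).1
    rw [← (hmem w hw).1] at h1
    rw [h] at h1
    exact Prod.ext h (Nat.eq_of_mul_eq_mul_left hb (by omega)))
  have hv := hpp Prod.snd (fun z hz => Icc_subset_Icc_right hnX (hmem z hz).2.2) (by
    intro z hz w hw h
    have h1 := (hmem z hz).1
    rw [← (hmem w hw).1] at h1
    rw [h] at h1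
    exact Prod.ext (Nat.eq_of_mul_eq_mul_left ha (by omega)) h)
  have := mul_le_mul_of_nonneg_left hu hl0
  have := mul_le_mul_of_nonneg_left hv hl0
  linarith

open scoped Classical in
/-- The admissible `n ≤ X` with fewer than `n / (8 a b (log n) ^ 2)` solutions in primes. -/
def fewLinPairs (a b X : ℕ) : Finset ℕ :=
  (Icc 1 X).filter fun n : ℕ => n.Coprime (a * b) ∧ Even (n + a + b) ∧
    ((linPrimePairs a b n).card : ℝ) * Real.log n ^ 2 < n / (8 * (a * b))

/-- **Few admissible `n` with few solutions.** -/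
theorem exists_card_fewLinPairs_le (a b A : ℕ) (ha : 0 < a) (hb : 0 < b) (hab : a.Coprime b) :
    ∃ C : ℝ, 0 < C ∧ ∀ X : ℕ, 2 ≤ X →
      ((fewLinPairs a b X).card : ℝ) ≤ C * ((X : ℝ) / Real.log X ^ A) := by
  classical
  obtain ⟨C, hC, h⟩ := exists_card_largeLinError_le a b (A + 1) ha hb hab
  obtain ⟨K, hK, hpow⟩ := ThreePrimes.exists_log_pow_le (A + 3)
  obtain ⟨p, hp⟩ : ∃ p : ℝ, p = (a : ℝ) * b := ⟨_, rfl⟩
  have hp1 : 1 ≤ p := hp ▸ one_le_mul_of_one_le_of_one_le (by exact_mod_cast ha)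
    (by exact_mod_cast hb)
  have hp0 : 0 < p := by linarith
  refine ⟨C + 1 + (32 * p * K + 5 * p) ^ A, by positivity, fun X hX => ?_⟩
  obtain ⟨l, hl⟩ : ∃ l, l = Real.log X := ⟨_, rfl⟩
  rw [← hl]
  have hl0 : 0 < l := hl ▸ Real.log_pos (by exact_mod_cast hX)
  obtain ⟨T, hT⟩ : ∃ T : ℝ, T = (X : ℝ) / l ^ A := ⟨_, rfl⟩
  rw [← hT]
  have hT0 : 0 < T := by rw [hT]; positivity
  rw [add_mul, add_mul, one_mul]
  rcases le_or_gt l (32 * p * K + 5 * p) with hsmall | hbig
  · refine le_trans ?_ (le_add_of_nonneg_left (by positivity))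
    refine (Nat.cast_le.2
      ((card_le_card (filter_subset _ _)).trans_eq (Nat.card_Icc 1 X))).trans ?_
    rw [Nat.add_sub_cancel]
    have h1 := mul_le_mul_of_nonneg_right (pow_le_pow_left₀ hl0.le hsmall A) hT0.le
    refine le_trans (le_of_eq ?_) h1
    rw [hT]
    field_simp
  refine le_trans ?_ (le_add_of_nonneg_right (by positivity))
  have hl5 : 5 * p ≤ l := by
    have : 0 ≤ 32 * p * K := by positivity
    linarith
  have hsub : fewLinPairs a b X ⊆ Icc 1 ⌊T⌋₊ ∪ largeLinError a b (A + 1) X := by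
    intro n hn
    rw [fewLinPairs, mem_filter, mem_Icc] at hn
    obtain ⟨⟨hn1, hnX⟩, hcop, hev, hfew⟩ := hn
    rw [mem_union, mem_Icc, largeLinError, mem_filter, mem_Icc, ← hl]
    rcases le_or_gt (n : ℝ) T with hle | hgt
    · exact Or.inl ⟨hn1, Nat.le_floor hle⟩
    refine Or.inr ⟨⟨hn1, hnX⟩, ?_⟩
    have h1 := linWeight_le ha hb hn1 hnX
    rw [← hl] at h1
    rw [← hp] at hfew
    have h2 : 32 * p * (√(X : ℝ) * l ^ 2) ≤ T := by
      rw [hT, le_div_iff₀ (by positivity)]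
      have hp' := hl ▸ hpow X (by exact_mod_cast (show 1 ≤ X by omega))
      refine le_of_mul_le_mul_right ?_ hl0
      calc 32 * p * (√(X : ℝ) * l ^ 2) * l ^ A * l = 32 * p * √(X : ℝ) * l ^ (A + 3) := by ring
        _ ≤ 32 * p * √(X : ℝ) * (K * √(X : ℝ)) := mul_le_mul_of_nonneg_left hp' (by positivity)
        _ = X * (32 * p * K) := by
            rw [show 32 * p * √(X : ℝ) * (K * √(X : ℝ)) = √(X : ℝ) * √(X : ℝ) * (32 * p * K) by
              ring, Real.mul_self_sqrt (Nat.cast_nonneg X)]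
        _ ≤ X * l := mul_le_mul_of_nonneg_left (by linarith) (Nat.cast_nonneg X)
    have h3 := mul_le_mul_of_nonneg_right (half_le_linSeries ha hb hab (by omega) hcop hev)
      (show 0 ≤ (n : ℝ) / p by positivity)
    have h4 : (n : ℝ) / l ^ (A + 1) ≤ n / p / 5 := by
      rw [div_div]
      refine div_le_div_of_nonneg_left (Nat.cast_nonneg n) (by positivity) ?_
      exact le_trans (by linarith) (le_self_pow₀ (by linarith) (by omega))
    have h5 : 4 * √(X : ℝ) * l ^ 2 ≤ n / p / 8 := by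
      rw [div_div, le_div_iff₀ (by positivity)]
      linarith
    have h6 : (n : ℝ) / (8 * p) = n / p / 8 := by rw [div_div, mul_comm]
    rw [h6] at hfew
    rw [← hp]
    have h7 := neg_abs_le (linWeight a b n - linSeries a b n * (n / p))
    have : 0 < (n : ℝ) / p := by positivity
    linarith
  refine (Nat.cast_le.2 ((card_le_card hsub).trans (card_union_le _ _))).trans ?_
  rw [Nat.cast_add, Nat.card_Icc, Nat.add_sub_cancel, add_comm]
  refine add_le_add ((h X hX).trans ?_) (Nat.floor_le hT0.le)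
  rw [← hl, hT]
  refine mul_le_mul_of_nonneg_left (div_le_div_of_nonneg_left (Nat.cast_nonneg X) (by positivity)
    (pow_le_pow_right₀ (by linarith) (by omega))) hC.le

open scoped Classical in
/-- The admissible `n ≤ X` that are no `a p + b q`. -/
def linExceptions (a b X : ℕ) : Finset ℕ :=
  (Icc 1 X).filter fun n : ℕ => n.Coprime (a * b) ∧ Even (n + a + b) ∧
    ¬ ∃ p q : ℕ, p.Prime ∧ q.Prime ∧ a * p + b * q = n

/-- **Almost all admissible `n` are `a p + b q`.** -/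
theorem exists_card_linExceptions_le (a b A : ℕ) (ha : 0 < a) (hb : 0 < b) (hab : a.Coprime b) :
    ∃ C : ℝ, 0 < C ∧ ∀ X : ℕ, 2 ≤ X →
      ((linExceptions a b X).card : ℝ) ≤ C * ((X : ℝ) / Real.log X ^ A) := by
  classical
  obtain ⟨C, hC, h⟩ := exists_card_fewLinPairs_le a b A ha hb hab
  refine ⟨C, hC, fun X hX => (Nat.cast_le.2 (card_le_card fun n hn => ?_)).trans (h X hX)⟩
  rw [linExceptions, mem_filter] at hn
  obtain ⟨hnX, hcop, hev, hno⟩ := hn
  rw [fewLinPairs, mem_filter]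
  refine ⟨hnX, hcop, hev, ?_⟩
  have he : linPrimePairs a b n = ∅ := by
    refine eq_empty_of_forall_notMem fun z hz => ?_
    simp only [linPrimePairs, linSolutions, mem_filter] at hz
    exact hno ⟨z.1, z.2, hz.2.1, hz.2.2, hz.1.2⟩
  rw [he, card_empty, Nat.cast_zero, zero_mul]
  have : (0 : ℝ) < n := Nat.cast_pos.2 (mem_Icc.1 hnX).1
  positivity

/-- **Primes in a class**, at least `Y / (2 k log Y)` of them. -/
theorem exists_prime_class_count (k : ℕ) (hk : 0 < k) : ∃ Y₀ : ℕ, ∀ Y : ℕ, Y₀ ≤ Y →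
    ∀ r : ℕ, r.Coprime k →
      (Y : ℝ) / (2 * k * Real.log Y) ≤
        (((Icc 1 Y).filter fun p => p.Prime ∧ p ≡ r [MOD k]).card : ℝ) := by
  have : NeZero k := ⟨hk.ne'⟩
  obtain ⟨C, hC, hSW⟩ := SiegelWalfisz.Summary.siegel_walfisz_log 1 1 one_pos one_pos
  obtain ⟨K, hK, hpow⟩ := ThreePrimes.exists_log_pow_le 2
  obtain ⟨Y₁, hY₁⟩ := exists_le_log (2 * k * (C + 2 * K) + k)
  refine ⟨max 2 Y₁, fun Y hY r hr => ?_⟩
  have hY2 : 2 ≤ Y := le_trans (le_max_left _ _) hY
  have hY1 : (1 : ℝ) ≤ Y := by exact_mod_cast (show 1 ≤ Y by omega)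
  obtain ⟨l, hl⟩ : ∃ l, l = Real.log Y := ⟨_, rfl⟩
  have hk1 : (1 : ℝ) ≤ k := by exact_mod_cast hk
  have hlbig : 2 * k * (C + 2 * K) + k ≤ l := hl ▸ hY₁ Y (le_trans (le_max_right _ _) hY)
  have hkl : (k : ℝ) ≤ l := by
    have : 0 ≤ 2 * (k : ℝ) * (C + 2 * K) := by positivity
    linarith
  have hl0 : 0 < l := by linarith
  rw [← hl]
  have hsw := hSW k (r : ZMod k) ((ZMod.isUnit_iff_coprime r k).2 hr) Y (by exact_mod_cast hY2)
    (by rw [Real.rpow_one, ← hl]; exact hkl)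
  rw [Nat.floor_natCast, Real.rpow_one, ← hl] at hsw
  obtain ⟨U, hU⟩ : ∃ U, U = (Icc 1 Y).filter (fun p => p.Prime ∧ p ≡ r [MOD k]) := ⟨_, rfl⟩
  rw [← hU]
  have hup : ∑ n ∈ (Icc 1 Y).filter (fun n : ℕ => (n : ZMod k) = (r : ZMod k)), Λ n ≤
      U.card * l + 2 * √(Y : ℝ) * l := by
    have h1 : ∑ n ∈ (Icc 1 Y).filter (fun n : ℕ => (n : ZMod k) = (r : ZMod k)), Λ n ≤
        ∑ n ∈ Icc 1 Y, ((if n ∈ U then l else 0) + powerPart n) := by
      rw [sum_filter]
      refine sum_le_sum fun n hn => ?_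
      have h0 := ThreePrimes.powerPart_nonneg n
      split_ifs with h2 h3 h3
      · have : Λ n ≤ l := by
          rw [hl]
          exact vonMangoldt_le_log.trans (Real.log_le_log (Nat.cast_pos.2 (mem_Icc.1 hn).1)
            (Nat.cast_le.2 (mem_Icc.1 hn).2))
        linarith
      · have : ¬ n.Prime := fun hp => h3 (hU ▸ mem_filter.2
          ⟨hn, hp, (ZMod.natCast_eq_natCast_iff _ _ _).1 h2⟩)
        rw [show powerPart n = Λ n from if_neg this, zero_add]
      · linarith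
      · linarith
    refine h1.trans ?_
    rw [sum_add_distrib, ← sum_filter, sum_const, nsmul_eq_mul, hl]
    refine add_le_add (mul_le_mul_of_nonneg_right (Nat.cast_le.2 (card_le_card fun n hn => ?_))
      (hl ▸ hl0.le)) (ThreePrimes.sum_powerPart_le (by omega))
    exact (mem_filter.1 hn).2
  have h2 : 2 * √(Y : ℝ) * l ≤ 2 * K * (Y / l) := by
    rw [mul_div_assoc', le_div_iff₀ hl0]
    calc 2 * √(Y : ℝ) * l * l = 2 * √(Y : ℝ) * l ^ 2 := by ring
      _ ≤ 2 * √(Y : ℝ) * (K * √(Y : ℝ)) :=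
          mul_le_mul_of_nonneg_left (hl ▸ hpow Y hY1) (by positivity)
      _ = 2 * K * (√(Y : ℝ) * √(Y : ℝ)) := by ring
      _ = _ := by rw [Real.mul_self_sqrt (Nat.cast_nonneg Y)]
  have h3 : (Y : ℝ) / k ≤ Y / k.totient :=
    div_le_div_of_nonneg_left (Nat.cast_nonneg Y) (Nat.cast_pos.2 (Nat.totient_pos.2 hk))
      (Nat.cast_le.2 (Nat.totient_le k))
  have h4 : (C + 2 * K) * ((Y : ℝ) / l) ≤ Y / k / 2 := by
    rw [div_div, mul_div_assoc', div_le_div_iff₀ hl0 (by positivity)]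
    have := mul_le_mul_of_nonneg_left (show 2 * k * (C + 2 * K) ≤ l by linarith)
      (Nat.cast_nonneg (α := ℝ) Y)
    linarith
  have h5 := (abs_le.1 hsw).1
  have h6 : (Y : ℝ) / k / 2 ≤ U.card * l := by
    have : C * (Y : ℝ) / l = C * (Y / l) := mul_div_assoc _ _ _
    linarith
  rw [div_le_iff₀ (by positivity)]
  rw [div_div, div_le_iff₀ (by positivity)] at h6
  linarith

/-- A class in which `n - c r` is admissible. -/
theorem exists_good_class {a b c : ℕ} (ha : 0 < a) (hb : 0 < b) (hc : c.Coprime (a * b)) (n : ℕ) :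
    ∃ ρ : ℕ, ρ.Coprime (2 * (a * b)) ∧
      ∀ p, p.Prime → p ≠ 2 → p ∣ a * b → ¬ n ≡ c * ρ [MOD p] := by
  classical
  have hab0 : 2 * (a * b) ≠ 0 := by positivity
  obtain ⟨f, hf⟩ : ∃ f : ℕ → ℕ, f = fun p => if n ≡ c * 1 [MOD p] then 2 else 1 := ⟨_, rfl⟩
  obtain ⟨g, hg⟩ : ∃ g : ℕ → ℕ, g = fun p => if p = 2 then 1 else f p := ⟨_, rfl⟩
  obtain ⟨ρ, hρ⟩ := Nat.chineseRemainderOfFinset g id (2 * (a * b)).primeFactors
    (fun p hp => (Nat.prime_of_mem_primeFactors hp).ne_zero)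
    (fun p hp q hq hpq => (Nat.coprime_primes (Nat.prime_of_mem_primeFactors hp)
      (Nat.prime_of_mem_primeFactors hq)).2 hpq)
  have hmem : ∀ p, p.Prime → p ∣ 2 * (a * b) → ρ ≡ g p [MOD p] := fun p hp hd =>
    hρ p (Nat.mem_primeFactors.2 ⟨hp, hd, hab0⟩)
  have hg0 : ∀ p, p.Prime → ¬ p ∣ g p := by
    intro p hp hd
    rw [hg, hf] at hd
    simp only at hd
    split_ifs at hd with h1 h2
    · exact hp.ne_one (Nat.dvd_one.1 hd)
    · exact h1 ((Nat.prime_dvd_prime_iff_eq hp Nat.prime_two).1 hd)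
    · exact hp.ne_one (Nat.dvd_one.1 hd)
  refine ⟨ρ, Nat.coprime_of_dvd fun p hp h1 h2 => hg0 p hp ?_, fun p hp hp2 hd hn => ?_⟩
  · exact Nat.modEq_zero_iff_dvd.1 ((hmem p hp h2).symm.trans (Nat.modEq_zero_iff_dvd.2 h1))
  have hpc : p.Coprime c := hp.coprime_iff_not_dvd.2 fun h =>
    Nat.not_coprime_of_dvd_of_dvd hp.one_lt h hd hc
  have h1 := hn.trans ((hmem p hp (hd.mul_left 2)).mul_left c)
  rw [hg] at h1
  simp only [if_neg hp2, hf] at h1
  split_ifs at h1 with h3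
  · have h4 : 1 ≡ 2 [MOD p] := Nat.ModEq.cancel_left_of_coprime hpc (h3.symm.trans h1)
    have := hp.two_le
    rw [Nat.ModEq, Nat.mod_eq_of_lt (by omega), Nat.mod_eq_of_lt (by omega)] at h4
    omega
  · exact h3 h1

/-- **Three primes with coefficients**: for pairwise coprime `a, b, c` every large
`n ≡ a + b + c` modulo `2` is `a p + b q + c r`. -/
theorem exists_ternary (a b c : ℕ) (ha : 0 < a) (hb : 0 < b) (hc : 0 < c) (hab : a.Coprime b)
    (hca : c.Coprime a) (hcb : c.Coprime b) :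
    ∃ N₀ : ℕ, ∀ n : ℕ, N₀ ≤ n → Even (n + a + b + c) →
      ∃ p q r : ℕ, p.Prime ∧ q.Prime ∧ r.Prime ∧ a * p + b * q + c * r = n := by
  classical
  obtain ⟨C, hC, hex⟩ := exists_card_linExceptions_le a b 2 ha hb hab
  obtain ⟨k, hk⟩ : ∃ k, k = 2 * (a * b) := ⟨_, rfl⟩
  have hk0 : 0 < k := by rw [hk]; positivity
  obtain ⟨Y₀, hY₀⟩ := exists_prime_class_count k hk0
  obtain ⟨X₁, hX₁⟩ := exists_le_log (8 * c * k * C + 1)
  refine ⟨max (max 2 X₁) (4 * c * (Y₀ + 2)), fun n hn hev => ?_⟩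
  simp only [max_le_iff] at hn
  obtain ⟨⟨hn2, hnX⟩, hnY⟩ := hn
  by_contra hno
  obtain ⟨ρ, hρ, hρn⟩ := exists_good_class ha hb (Nat.Coprime.mul_right hca hcb) n
  rw [← hk] at hρ
  obtain ⟨Y, hY⟩ : ∃ Y, Y = n / (2 * c) := ⟨_, rfl⟩
  have hY1 : Y₀ + 2 ≤ Y := by
    rw [hY, Nat.le_div_iff_mul_le (by positivity)]
    nlinarith
  have hY2 : 2 * c * Y ≤ n := hY ▸ Nat.mul_div_le n (2 * c)
  have hY3 : n ≤ 4 * c * Y := by
    have h1 := Nat.div_add_mod n (2 * c)
    have h2 := Nat.mod_lt n (show 2 * c > 0 by positivity)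
    rw [← hY] at h1
    nlinarith
  have hcount := hY₀ Y (by omega) ρ hρ
  have hsub : ((Icc 1 Y).filter fun p => p.Prime ∧ p ≡ ρ [MOD k]).image (fun r => n - c * r) ⊆
      linExceptions a b n := by
    intro m hm
    rw [mem_image] at hm
    obtain ⟨r, hr, rfl⟩ := hm
    rw [mem_filter, mem_Icc] at hr
    obtain ⟨⟨hr1, hrY⟩, hrp, hrρ⟩ := hr
    have hcr : c * r ≤ c * Y := Nat.mul_le_mul_left c hrY
    have hcr1 : 0 < c * r := Nat.mul_pos hc hr1
    rw [mul_assoc] at hY2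
    have hrk : r.Coprime k := (hrρ.gcd_eq).trans hρ
    have hr2 : Odd r := by
      rcases hrp.eq_two_or_odd' with rfl | h
      · exact absurd hrk (Nat.not_coprime_of_dvd_of_dvd one_lt_two dvd_rfl
          (hk ▸ dvd_mul_right 2 _))
      · exact h
    have hcr2 : Even (c * r) ↔ Even c := by
      rw [Nat.even_mul]
      exact or_iff_left (Nat.not_even_iff_odd.2 hr2)
    have hev' : Even (n - c * r + a + b) := by
      have h := hev
      simp only [Nat.even_add, Nat.even_sub (show c * r ≤ n by omega), hcr2] at h ⊢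
      tauto
    rw [linExceptions, mem_filter, mem_Icc]
    refine ⟨⟨by omega, Nat.sub_le _ _⟩, Nat.coprime_of_dvd fun p hp hpm hpd => ?_, hev',
      fun ⟨p, q, hp, hq, he⟩ => hno ⟨p, q, r, hp, hq, hrp, by omega⟩⟩
    rcases eq_or_ne p 2 with rfl | hp2
    · have he : Even (n - c * r) := even_iff_two_dvd.2 hpm
      rw [Nat.even_add, Nat.even_add] at hev'
      have h2 : ¬ (Even a ∧ Even b) := fun h => Nat.not_coprime_of_dvd_of_dvd one_lt_two
        (even_iff_two_dvd.1 h.1) (even_iff_two_dvd.1 h.2) hab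
      have h3 : Even a ∨ Even b := Nat.even_mul.1 (even_iff_two_dvd.2 hpd)
      tauto
    · refine hρn p hp hp2 hpd ?_
      refine Nat.ModEq.trans ?_ ((hrρ.of_dvd (hk ▸ hpd.mul_left 2)).mul_left c)
      exact ((Nat.modEq_iff_dvd' (by omega)).2 hpm).symm
  have hcard := card_le_card hsub
  rw [card_image_of_injOn (fun x hx y hy hxy => by
    simp only [coe_filter, mem_Icc, Set.mem_ofPred_eq] at hx hy
    have h1 : c * x ≤ c * Y := Nat.mul_le_mul_left c hx.1.2
    have h2 : c * y ≤ c * Y := Nat.mul_le_mul_left c hy.1.2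
    rw [mul_assoc] at hY2
    exact Nat.eq_of_mul_eq_mul_left hc (by omega))] at hcard
  have hmain := hcount.trans ((Nat.cast_le.2 hcard).trans (hex n hn2))
  obtain ⟨l, hl⟩ : ∃ l, l = Real.log n := ⟨_, rfl⟩
  have hlbig : 8 * (c : ℝ) * k * C + 1 ≤ l := hl ▸ hX₁ n hnX
  have hl0 : 0 < l := by
    have : 0 ≤ 8 * (c : ℝ) * k * C := by positivity
    linarith
  rw [← hl] at hmain
  have hn0 : (0 : ℝ) < n := Nat.cast_pos.2 (by omega)
  have hlY : Real.log Y ≤ l := by
    rw [hl]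
    refine Real.log_le_log (Nat.cast_pos.2 (by omega)) (Nat.cast_le.2 ?_)
    rw [hY]
    exact Nat.div_le_self n _
  have hlY0 : 0 < Real.log Y := Real.log_pos (by exact_mod_cast (show 1 < Y by omega))
  have hc0 : (0 : ℝ) < c := Nat.cast_pos.2 hc
  have hkR : (0 : ℝ) < k := Nat.cast_pos.2 hk0
  have h1 : (n : ℝ) / (8 * c * k * l) ≤ Y / (2 * k * Real.log Y) := by
    refine le_trans ?_ (div_le_div_of_nonneg_left (Nat.cast_nonneg Y) (by positivity)
      (mul_le_mul_of_nonneg_left hlY (by positivity)))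
    rw [div_le_div_iff₀ (by positivity) (by positivity)]
    have h3 : (n : ℝ) ≤ 4 * c * Y := by exact_mod_cast hY3
    have := mul_le_mul_of_nonneg_right h3 (show 0 ≤ 2 * (k : ℝ) * l by positivity)
    linarith
  have h2 := h1.trans hmain
  rw [mul_div_assoc', div_le_div_iff₀ (by positivity) (by positivity)] at h2
  have h3 : (n : ℝ) * l * l ≤ n * l * (8 * c * k * C) := by linarith
  have := le_of_mul_le_mul_left h3 (by positivity)
  linarith

end FA.PrimeLinearEquation
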