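import Fermat.Agent.AlmostGoldbach.Singular

/-!
# The singular series of `a p + b q = n`

For coprime `a` and `b` the term at `q` is that of two primes times `w q`, where
`w q = μ g φ g` for `g = (q, a)`, times the same for `b`. The tail is as for two primes, and the
series is at least `1/2` when `n` is prime to `a b` and `n + a + b` is even.
-/

set_option autoImplicit false

noncomputable section

namespace FA.PrimeLinearEquation

open Finset ArithmeticFunction
open FA.ThreePrimes (moebiusR ramanujan)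
open FA.AlmostGoldbach (pairTerm pairTerm_apply pairConst)

/-- `μ g φ g` for `g = (q, a)`. -/
def gcdWeight (a q : ℕ) : ℝ := moebiusR (q.gcd a) * ((q.gcd a).totient : ℝ)

/-- `μ / φ` at `q / (q, a)`, the coefficient on an arc. -/
def arcCoeff (a q : ℕ) : ℝ := moebiusR (q / q.gcd a) / ((q / q.gcd a).totient : ℝ)

/-- The terms. -/
def linTerm (a b n : ℕ) : ArithmeticFunction ℝ :=
  ⟨fun q => pairTerm n q * (gcdWeight a q * gcdWeight b q), by simp⟩

theorem linTerm_apply (a b n q : ℕ) :
    linTerm a b n q = pairTerm n q * (gcdWeight a q * gcdWeight b q) := rfl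

theorem gcdWeight_mul (a : ℕ) {q r : ℕ} (h : q.Coprime r) :
    gcdWeight a (q * r) = gcdWeight a q * gcdWeight a r := by
  have hc : (q.gcd a).Coprime (r.gcd a) :=
    Nat.Coprime.coprime_dvd_left (Nat.gcd_dvd_left q a)
      (Nat.Coprime.coprime_dvd_right (Nat.gcd_dvd_left r a) h)
  rw [gcdWeight, gcdWeight, gcdWeight, Nat.Coprime.mul_gcd h,
    ThreePrimes.moebiusR_isMultiplicative.2 hc, Nat.totient_mul hc]
  push_cast
  ring

theorem gcdWeight_of_coprime {a q : ℕ} (h : q.Coprime a) : gcdWeight a q = 1 := by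
  rw [gcdWeight, h.gcd_eq_one, Nat.totient_one, ThreePrimes.moebiusR_isMultiplicative.1]
  simp

theorem abs_gcdWeight_le {a : ℕ} (ha : 0 < a) (q : ℕ) : |gcdWeight a q| ≤ a := by
  rw [gcdWeight, abs_mul, Nat.abs_cast]
  refine (mul_le_of_le_one_left (Nat.cast_nonneg _) (ThreePrimes.abs_moebiusR_le _)).trans ?_
  exact_mod_cast (Nat.totient_le _).trans (Nat.gcd_le_right q ha)

theorem linTerm_isMultiplicative (a b n : ℕ) : (linTerm a b n).IsMultiplicative := by
  refine ⟨?_, fun {q r} h => ?_⟩
  · rw [linTerm_apply, (AlmostGoldbach.pairTerm_isMultiplicative n).1,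
      gcdWeight_of_coprime (Nat.coprime_one_left a),
      gcdWeight_of_coprime (Nat.coprime_one_left b)]
    norm_num
  · simp only [linTerm_apply]
    rw [(AlmostGoldbach.pairTerm_isMultiplicative n).2 h, gcdWeight_mul a h, gcdWeight_mul b h]
    ring

theorem moebiusR_of_not_squarefree {q : ℕ} (h : ¬ Squarefree q) : moebiusR q = 0 := by
  rw [moebiusR, intCoe_apply, moebius_eq_zero_of_not_squarefree h]
  simp

/-- At a squarefree `q` the coefficient is `μ q μ g φ g / φ q`. -/
theorem arcCoeff_of_squarefree (a : ℕ) {q : ℕ} (h : Squarefree q) :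
    arcCoeff a q = moebiusR q * gcdWeight a q / (q.totient : ℝ) := by
  have hq0 : q ≠ 0 := h.ne_zero
  obtain ⟨g, hg⟩ : ∃ g, g = q.gcd a := ⟨_, rfl⟩
  obtain ⟨t, ht⟩ : g ∣ q := hg ▸ Nat.gcd_dvd_left q a
  have hg0 : 0 < g := hg ▸ Nat.gcd_pos_of_pos_left a (Nat.pos_of_ne_zero hq0)
  have hgt : g.Coprime t := Nat.coprime_of_squarefree_mul (ht ▸ h)
  have hsq : moebiusR g * moebiusR g = 1 := by
    rw [← sq, moebiusR, intCoe_apply, ← Int.cast_pow,
      moebius_sq_eq_one_of_squarefree (h.squarefree_of_dvd (ht ▸ dvd_mul_right g t)), Int.cast_one]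
  rw [arcCoeff, gcdWeight, ← hg, ht, Nat.mul_div_cancel_left t hg0,
    ThreePrimes.moebiusR_isMultiplicative.2 hgt, Nat.totient_mul hgt]
  have hφ : (g.totient : ℝ) ≠ 0 := Nat.cast_ne_zero.2 (Nat.totient_pos.2 hg0).ne'
  push_cast
  rw [show moebiusR g * moebiusR t * (moebiusR g * (g.totient : ℝ)) =
      moebiusR g * moebiusR g * (moebiusR t * g.totient) by ring, hsq, one_mul,
    mul_comm (g.totient : ℝ) (t.totient : ℝ), mul_div_mul_right _ _ hφ]

/-- **The coefficient of the two sums on an arc.** -/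
theorem arcCoeff_mul {a b : ℕ} (hab : a.Coprime b) (q : ℕ) :
    arcCoeff a q * arcCoeff b q =
      moebiusR q ^ 2 * (gcdWeight a q * gcdWeight b q) / (q.totient : ℝ) ^ 2 := by
  by_cases h : Squarefree q
  · rw [arcCoeff_of_squarefree a h, arcCoeff_of_squarefree b h]
    ring
  rw [moebiusR_of_not_squarefree h]
  rcases Nat.eq_zero_or_pos q with rfl | hq
  · rcases Nat.eq_zero_or_pos a with rfl | ha
    · simp [arcCoeff]
    · simp [arcCoeff]
  obtain ⟨p, hp, hpq⟩ : ∃ p : ℕ, p.Prime ∧ p * p ∣ q := by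
    by_contra hno
    exact h (Nat.squarefree_iff_prime_squarefree.2 fun p hp hd => hno ⟨p, hp, hd⟩)
  have key : ∀ c : ℕ, ¬ p ∣ c → arcCoeff c q = 0 := by
    intro c hc
    have hcop : (p * p).Coprime (q.gcd c) := by
      have h1 : p.Coprime (q.gcd c) :=
        hp.coprime_iff_not_dvd.2 fun hd => hc (hd.trans (Nat.gcd_dvd_right q c))
      exact h1.mul_left h1
    have hd : p * p ∣ q / q.gcd c :=
      hcop.dvd_of_dvd_mul_right (by rwa [Nat.div_mul_cancel (Nat.gcd_dvd_left q c)])
    rw [arcCoeff, moebiusR_of_not_squarefree fun hs => hp.ne_one (Nat.isUnit_iff.1 (hs p hd))]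
    simp
  by_cases hpa : p ∣ a
  · rw [key b fun hpb => Nat.not_coprime_of_dvd_of_dvd hp.one_lt hpa hpb hab]
    simp
  · rw [key a hpa]
    simp

theorem abs_linTerm_le {a b : ℕ} (ha : 0 < a) (hb : 0 < b) (n q : ℕ) :
    |linTerm a b n q| ≤ a * b * |pairTerm n q| := by
  rw [linTerm_apply, abs_mul, mul_comm, abs_mul]
  exact mul_le_mul_of_nonneg_right (mul_le_mul (abs_gcdWeight_le ha q) (abs_gcdWeight_le hb q)
    (abs_nonneg _) (Nat.cast_nonneg a)) (abs_nonneg _)

/-- The singular series. -/
def linSeries (a b n : ℕ) : ℝ := ∑' q, linTerm a b n q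

theorem summable_lin {a b n : ℕ} (ha : 0 < a) (hb : 0 < b) (hn : n ≠ 0) :
    Summable fun q => ‖linTerm a b n q‖ :=
  Summable.of_nonneg_of_le (fun _ => norm_nonneg _) (fun q => abs_linTerm_le ha hb n q)
    ((AlmostGoldbach.summable_pair hn).mul_left ((a : ℝ) * b))

/-- **The tail.** -/
theorem abs_linSeries_sub_le {a b n : ℕ} (ha : 0 < a) (hb : 0 < b) (hn : n ≠ 0) (P : ℕ) :
    |linSeries a b n - ∑ q ∈ Icc 1 P, linTerm a b n q| ≤
      a * b * (pairConst * n.divisors.card * ((P + 1 : ℕ) : ℝ) ^ (-(1 / 4) : ℝ)) := by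
  have h0 : ∑ q ∈ Icc 1 P, linTerm a b n q = ∑ q ∈ range (P + 1), linTerm a b n q := by
    refine sum_subset (fun q hq => ?_) fun q hq hq' => ?_
    · rw [mem_Icc] at hq
      rw [mem_range]
      omega
    · rw [mem_range] at hq
      rw [mem_Icc] at hq'
      obtain rfl : q = 0 := by omega
      simp
  have hs := summable_lin ha hb hn
  rw [h0, linSeries, ← Summable.sum_add_tsum_nat_add (P + 1) hs.of_norm, add_sub_cancel_left,
    ← Real.norm_eq_abs]
  refine (norm_tsum_le_tsum_norm ((summable_nat_add_iff (f := fun q => ‖linTerm a b n q‖)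
    (P + 1)).2 hs)).trans (Real.tsum_le_of_sum_range_le (fun i => norm_nonneg _) fun Q => ?_)
  refine (sum_le_sum (g := fun i => (a : ℝ) * b * |pairTerm n (i + (P + 1))|) fun i _ =>
    abs_linTerm_le ha hb n _).trans ?_
  rw [← mul_sum]
  refine mul_le_mul_of_nonneg_left
    (le_trans (le_of_eq ?_) (AlmostGoldbach.sum_abs_pairTerm_le hn P (P + Q))) (by positivity)
  rw [show Ioc P (P + Q) = Ico (P + 1) (P + Q + 1) by ext; simp, sum_Ico_eq_sum_range,
    show P + Q + 1 - (P + 1) = Q by omega]
  exact sum_congr rfl fun i _ => by rw [add_comm i]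

theorem abs_linSeries_le {a b n : ℕ} (ha : 0 < a) (hb : 0 < b) (hn : n ≠ 0) :
    |linSeries a b n| ≤ a * b * (pairConst * n.divisors.card) := by
  simpa using abs_linSeries_sub_le ha hb hn 0

theorem abs_sum_linTerm_le {a b n : ℕ} (ha : 0 < a) (hb : 0 < b) (hn : n ≠ 0) (P : ℕ) :
    |∑ q ∈ Icc 1 P, linTerm a b n q| ≤ 2 * (a * b * (pairConst * n.divisors.card)) := by
  have h1 := abs_linSeries_sub_le ha hb hn P
  have h2 := abs_linSeries_le ha hb hn
  have hz : ((P + 1 : ℕ) : ℝ) ^ (-(1 / 4) : ℝ) ≤ 1 :=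
    Real.rpow_le_one_of_one_le_of_nonpos (by exact_mod_cast Nat.le_add_left 1 P) (by norm_num)
  have hc := AlmostGoldbach.pairConst_nonneg
  have h3 : (a : ℝ) * b * (pairConst * n.divisors.card * ((P + 1 : ℕ) : ℝ) ^ (-(1 / 4) : ℝ)) ≤
      a * b * (pairConst * n.divisors.card) :=
    mul_le_mul_of_nonneg_left (mul_le_of_le_one_right (by positivity) hz) (by positivity)
  rw [abs_le] at h1 h2 ⊢
  constructor <;> linarith

theorem telescope_le_linFactor {a b n p : ℕ} (hab : a.Coprime b) (hn : n.Coprime (a * b))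
    (hev : Even (n + a + b)) (hp : p.Prime) :
    ThreePrimes.telescope p ≤ 1 + linTerm a b n p := by
  by_cases hpab : p ∣ a * b
  · have hpn : ¬ p ∣ n := fun h => Nat.not_coprime_of_dvd_of_dvd hp.one_lt h hpab hn
    have hp2 : (2 : ℝ) ≤ p := by exact_mod_cast hp.two_le
    have hw : gcdWeight a p * gcdWeight b p = -((p : ℝ) - 1) := by
      have key : ∀ c, p ∣ c → gcdWeight c p = -((p : ℝ) - 1) := fun c hc => by
        rw [gcdWeight, Nat.gcd_eq_left hc, moebiusR, intCoe_apply, moebius_apply_prime hp,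
          Nat.totient_prime hp, Nat.cast_sub hp.one_lt.le]
        push_cast
        ring
      rcases hp.dvd_mul.1 hpab with h | h
      · have hpb : p.Coprime b := hp.coprime_iff_not_dvd.2
          fun h' => Nat.not_coprime_of_dvd_of_dvd hp.one_lt h h' hab
        rw [key a h, gcdWeight_of_coprime hpb, mul_one]
      · have hpa : p.Coprime a := hp.coprime_iff_not_dvd.2
          fun h' => Nat.not_coprime_of_dvd_of_dvd hp.one_lt h' h hab
        rw [key b h, gcdWeight_of_coprime hpa, one_mul]
    have hval : linTerm a b n p = 1 / ((p : ℝ) - 1) := by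
      rw [linTerm_apply, pairTerm_apply, ThreePrimes.ramanujan_prime n hp, if_neg hpn, hw,
        moebiusR, intCoe_apply, moebius_apply_prime hp, Nat.totient_prime hp,
        Nat.cast_sub hp.one_lt.le]
      push_cast
      have : (p : ℝ) - 1 ≠ 0 := by linarith
      field_simp
    rw [hval]
    have : 0 ≤ 1 / ((p : ℝ) - 1) := one_div_nonneg.2 (by linarith)
    linarith [(ThreePrimes.telescope_bounds p).2]
  · rw [linTerm_apply, gcdWeight_of_coprime
      (hp.coprime_iff_not_dvd.2 fun h => hpab (h.mul_right b)), gcdWeight_of_coprime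
      (hp.coprime_iff_not_dvd.2 fun h => hpab (h.mul_left a)), mul_one, mul_one]
    rcases hp.eq_two_or_odd' with rfl | hodd
    · refine AlmostGoldbach.telescope_le_pairFactor ?_ Nat.prime_two
      have h2a : ¬ Even a := fun h => hpab ((even_iff_two_dvd.1 h).mul_right b)
      have h2b : ¬ Even b := fun h => hpab ((even_iff_two_dvd.1 h).mul_left a)
      have h' := hev
      rw [Nat.even_add, Nat.even_add] at h'
      tauto
    · have e : pairTerm n p = pairTerm (2 * n) p := by
        have hiff : p ∣ 2 * n ↔ p ∣ n := by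
          refine ⟨fun h => ?_, fun h => h.mul_left 2⟩
          rcases hp.dvd_mul.1 h with h' | h'
          · exact absurd ((Nat.prime_dvd_prime_iff_eq hp Nat.prime_two).1 h') fun h2 => by
              rw [h2] at hodd
              exact (Nat.not_odd_iff_even.2 even_two) hodd
          · exact h'
        rw [pairTerm_apply, pairTerm_apply, ThreePrimes.ramanujan_prime n hp,
          ThreePrimes.ramanujan_prime (2 * n) hp]
        simp only [hiff]
      rw [e]
      exact AlmostGoldbach.telescope_le_pairFactor (even_two_mul n) hp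

/-- **At least `1/2`** for `n` prime to `a b` with `n + a + b` even. -/
theorem half_le_linSeries {a b n : ℕ} (ha : 0 < a) (hb : 0 < b) (hab : a.Coprime b) (hn0 : n ≠ 0)
    (hn : n.Coprime (a * b)) (hev : Even (n + a + b)) : 1 / 2 ≤ linSeries a b n := by
  refine ge_of_tendsto ((linTerm_isMultiplicative a b n).eulerProduct (summable_lin ha hb hn0))
    (Filter.Eventually.of_forall fun k => ?_)
  refine (ThreePrimes.half_le_prod_telescope k).trans ?_
  refine le_trans (prod_le_prod_of_subset_of_le_one (s := k.primesBelow)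
    (fun p hp => (mem_filter.1 hp).1) (fun m _ => (ThreePrimes.telescope_bounds m).1.le)
    fun m _ _ => (ThreePrimes.telescope_bounds m).2) ?_
  refine prod_le_prod (fun m _ => (ThreePrimes.telescope_bounds m).1.le) fun p hp => ?_
  rw [Nat.mem_primesBelow] at hp
  rw [tsum_eq_sum (s := range 2) fun e he => ?_]
  · simp [sum_range_succ, (linTerm_isMultiplicative a b n).1]
    exact telescope_le_linFactor hab hn hev hp.2
  · rw [mem_range] at he
    rw [linTerm_apply, pairTerm_apply, moebiusR, intCoe_apply,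
      moebius_apply_prime_pow hp.2 (by omega), if_neg (by omega)]
    simp

end FA.PrimeLinearEquation
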